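/-
S59, unit F2: the setting at the last level when every removable prime is scalar, and what the
automorphic side hands to its patching.
-/
import Fermat.Agent.R59.Levels.Defs
import Fermat.Agent.TW.Defs
import Fermat.Agent.Deform.MatrixRep
import Fermat.Agent.LL.Setting

set_option autoImplicit false
set_option linter.unusedSectionVars false

noncomputable section

namespace Fermat.Agent.R59.Scalar

open IsLocalRing
open Fermat.Agent.Galois (GQ)
open Fermat.Agent.GalRep (cyc)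
open Fermat.Agent.GalRep.Level (cycM)
open Fermat.Agent.Auto (CharGrp)

variable (p : ℕ) [Fact p.Prime] (O : Type) [CommRing O] [IsDomain O] [IsDiscreteValuationRing O]
  [IsAdicComplete (maximalIdeal O) O] [Finite (ResidueField O)]
  [Algebra ℤ_[p] O] [Module.Finite ℤ_[p] O] [CharZero O]

/-- The residual setting: `sig` are the scalar primes to be twisted, `q` among them cannot be
removed, `aux` auxiliary primes; at the other primes of `N` different from `p` the representation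
is ramified. -/
structure Setting (ρbar : ResidualGaloisRep (ResidueField O)) (N : ℕ) [NeZero N]
    (S sig aux : Finset ℕ) (q : ℕ) (a : ℕ → O) : Prop where
  levels : Levels.Setting p O ρbar N S a
  prime_S : ∀ l ∈ S, l.Prime
  squarefree : Squarefree N
  exists_zeta : ∃ ζ : O, IsPrimitiveRoot ζ p
  sqrt_neg_one : ∃ i₀ : O, i₀ * i₀ = -1
  twHyp : ∀ b : Module.Basis (Fin 2) (ResidueField O) ρbar.V, TW.TWHyp p (LL.resMat ρbar b)
  sig_spec : ∀ l ∈ sig, l.Prime ∧ l ∣ N ∧ l ≠ p ∧ l ≡ 1 [MOD p] ∧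
    ∀ A : ValuationSubring (AlgebraicClosure ℚ), A.LiesOverPrime l →
      ∀ σ ∈ A.inertiaSubgroupIn ℚ, ρbar.ρ σ = 1
  scalar : ∀ l ∈ sig, ∀ A : ValuationSubring (AlgebraicClosure ℚ), A.LiesOverPrime l →
    ∀ σ ∈ A.decompositionSubgroup ℚ, ∃ c : ResidueField O, ρbar.ρ σ = c • 1
  q_mem : q ∈ sig
  not_lower : ∀ [NeZero (N / q)] (S' : Finset ℕ), S ⊆ S' →
    ∀ θ : CuspForm.heckeAlgebra (N / q) 2 (↑S' : Set ℕ) →+* ResidueField O,
      ∃ (l : ℕ) (hl : l.Prime) (hlN : ¬ l ∣ N / q) (hlS : l ∉ (↑S' : Set ℕ)),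
        θ (CuspForm.heckeAlgebra.T hl hlN hlS) ≠ residue O (a l)
  aux_spec : ∀ r ∈ aux, r.Prime ∧ r ≠ p ∧ r ∣ N ∧ r ∉ sig ∧ ρbar.IsUnramifiedAt r ∧
    (r : ResidueField O) ≠ 1 ∧ ∃ t : ResidueField O, t ^ 2 ≠ ((r : ResidueField O) + 1) ^ 2 ∧
      ∀ A : ValuationSubring (AlgebraicClosure ℚ), A.LiesOverPrime r →
        ∀ σ : GQ, A.IsFrobeniusAt σ r → LinearMap.charpoly (ρbar.ρ σ) =
          Polynomial.X ^ 2 - Polynomial.C t * Polynomial.X + Polynomial.C (r : ResidueField O)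
  unramified : ∀ l : ℕ, l.Prime → l ≠ p → ¬ l ∣ N → ρbar.IsUnramifiedAt l
  ramified : ∀ l : ℕ, l.Prime → l ≠ p → l ∣ N → l ∉ sig → l ∉ aux →
    ¬ ρbar.IsUnramifiedAt l ∧ (GaloisRepAdic.ofResidualGaloisRep ρbar).IsUnipotentOnInertiaAt l
  ordinary : p ∣ N → (GaloisRepAdic.ofResidualGaloisRep ρbar).IsOrdinaryAt p
  not_flat : p ∣ N → ¬ (GaloisRepAdic.ofResidualGaloisRep ρbar).IsFlatAt p

/-- The data at the level with Taylor-Wiles primes `Q`. -/
structure Out (ρbar : ResidualGaloisRep (ResidueField O)) (N : ℕ) (S sig Q : Finset ℕ)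
    (q n : ℕ) : Type 1 where
  T : Type
  [commRing : CommRing T]
  [isLocalRing : IsLocalRing T]
  [algebra : Algebra O T]
  [isLocalHom : IsLocalHom (algebraMap O T)]
  [isNoetherian : IsNoetherianRing T]
  [isComplete : IsAdicComplete (maximalIdeal T) T]
  [finite : Module.Finite O T]
  [free : Module.Free O T]
  residue_surjective : Function.Surjective (residue T ∘ algebraMap O T)
  ρ : GaloisRepAdic T
  residual : ρ.residual.IsEquiv (ρbar.baseChangeAlong (ResidueField.map (algebraMap O T)))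
  adjoin_trace : Algebra.adjoin O {t : T | ∃ l : ℕ, l.Prime ∧ l ∉ S ∧ l ∉ Q ∧
    ∃ A : ValuationSubring (AlgebraicClosure ℚ), A.LiesOverPrime l ∧
      ∃ σ : GQ, A.IsFrobeniusAt σ l ∧ t = ρ.trace σ} = ⊤
  det_eq : ∀ σ : GQ,
    LinearMap.det (ρ.ρ σ) = algebraMap O T (algebraMap ℤ_[p] O (cyc p σ : ℤ_[p]))
  unramified : ∀ l : ℕ, l.Prime → l ≠ p → ¬ l ∣ N → l ∉ Q → ρ.IsUnramifiedAt l
  flat : ¬ p ∣ N → ρ.IsFlatAt p
  ordinary : p ∣ N → ρ.IsOrdinaryAt p
  unipotent : ∀ l : ℕ, l.Prime → l ≠ p → l ∣ N → l ∉ sig → ρ.IsUnipotentOnInertiaAt l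
  V : Type
  [addCommGroup : AddCommGroup V]
  [module : Module O V]
  [moduleFinite : Module.Finite O V]
  [moduleFree : Module.Free O V]
  act : T →ₐ[O] Module.End O V
  dia : CharGrp p Q (fun _ => n + 1) →* Module.End O V
  dia_commute : ∀ x t, Commute (dia x) (act t)
  rank : ℕ
  rank_pos : 0 < rank
  basis : ∃ b : Fin rank → V, ∀ v : V, ∃! f : Fin rank → CharGrp p Q (fun _ => n + 1) → O,
    v = ∑ i, ∑ x, f i x • dia x (b i)
  delta : (r : Q) → (ZMod (r : ℕ))ˣ →* CharGrp p Q (fun _ => n + 1)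
  delta_off : ∀ (r r' : Q) (u : (ZMod (r : ℕ))ˣ), r' ≠ r → delta r u r' = 1
  delta_surjective : ∀ r : Q, Function.Surjective fun u => delta r u r
  inertia_tw : ∀ (r : Q) [NeZero (r : ℕ)] (A : ValuationSubring (AlgebraicClosure ℚ)),
    A.LiesOverPrime (r : ℕ) → ∀ σ ∈ A.inertiaSubgroupIn ℚ,
      act (ρ.trace σ) = dia (delta r (cycM (r : ℕ) σ)) + dia (delta r (cycM (r : ℕ) σ))⁻¹
  xi : (l : sig) → (ZMod (l : ℕ))ˣ →* Oˣ
  xi_pow : ∀ (l : sig) u, xi l u ^ p = 1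
  xi_ne : ∀ l : sig, xi l ≠ 1
  inertia_sig : ∀ (l : sig) [NeZero (l : ℕ)] (A : ValuationSubring (AlgebraicClosure ℚ)),
    A.LiesOverPrime (l : ℕ) → ∀ σ ∈ A.inertiaSubgroupIn ℚ,
      act (ρ.trace σ) = algebraMap O (Module.End O V)
        ((xi l (cycM (l : ℕ) σ) : O) + ((xi l (cycM (l : ℕ) σ))⁻¹ : Oˣ))
  qnew : ∀ (A : ValuationSubring (AlgebraicClosure ℚ)), A.LiesOverPrime q →
    ∀ σ : GQ, A.IsFrobeniusAt σ q → ∀ v : V,
      act (ρ.trace σ ^ 2 - (((q + 1) ^ 2 : ℕ) : T)) v ∈ maximalIdeal O • (⊤ : Submodule O V)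

attribute [instance] Out.commRing Out.isLocalRing Out.algebra Out.isLocalHom
  Out.isNoetherian Out.isComplete Out.finite Out.free Out.addCommGroup
  Out.module Out.moduleFinite Out.moduleFree

end Fermat.Agent.R59.Scalar
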