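/-
S59, unit F2: the residual system of a residually modular model, with values in the prime field.
-/
import Fermat.Agent.GalRep.EigenChar
import Fermat.Agent.Newform.Character
import Fermat.Prelude.Def_FLTPrelim_ModularRep
import Fermat.Prelude.Def_CuspForm_HeckeAlgebra

set_option autoImplicit false
set_option linter.style.haveILetI false

open WeierstrassCurve CongruenceSubgroup ModularFormClass

namespace Fermat.Agent.R59.Scalar

/-- The values `a_l(W)` modulo `p` form a system of the level. -/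
theorem exists_theta (W : WeierstrassCurve ℤ) {p : ℕ} [Fact p.Prime] {M : ℕ} [NeZero M]
    (hres : W.IsResiduallyModularOfLevel p M) (S : Finset ℕ)
    (hMS : ∀ l : ℕ, l.Prime → l ∣ M → l ∈ S)
    (hS : ∀ l : ℕ, l.Prime → l ∉ S → W.IsGoodPrimeFor l ∧ l ≠ p) :
    ∃ θ : CuspForm.heckeAlgebra M 2 (↑S : Set ℕ) →+* ZMod p,
      ∀ (l : ℕ) (hl : l.Prime) (hlM : ¬ l ∣ M) (hlS : l ∉ (↑S : Set ℕ)),
        θ (CuspForm.heckeAlgebra.T hl hlM hlS) = (W.apOfModel l : ZMod p) := by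
  classical
  obtain ⟨f, 𝔪, hf, h𝔪, hp𝔪, hcong⟩ := hres
  letI : Field (integralClosure ℤ ℂ ⧸ 𝔪) := Ideal.Quotient.field 𝔪
  haveI : CharP (integralClosure ℤ ℂ ⧸ 𝔪) p := by
    refine (CharP.charP_iff_prime_eq_zero Fact.out).mpr ?_
    rw [← map_natCast (Ideal.Quotient.mk 𝔪), Ideal.Quotient.eq_zero_iff_mem]
    exact hp𝔪
  set mk := Ideal.Quotient.mk 𝔪
  set ψ := ZMod.castHom (dvd_refl p) (integralClosure ℤ ℂ ⧸ 𝔪)
  obtain ⟨χ, hχ⟩ := GalRep.exists_eigenCharacter hf (↑S : Set ℕ)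
  set f' := mk.comp χ
  have hval : ∀ (l : ℕ) (hl : l.Prime) (hlM : ¬ l ∣ M) (hlS : l ∉ (↑S : Set ℕ)),
      f' (CuspForm.heckeAlgebra.T hl hlM hlS) = ψ (W.apOfModel l : ZMod p) := by
    intro l hl hlM hlS
    obtain ⟨hgood, hlp⟩ := hS l hl hlS
    obtain ⟨a, ha, ham⟩ := hcong l hl hgood hlM hlp
    rw [map_intCast, RingHom.comp_apply,
      show χ (CuspForm.heckeAlgebra.T hl hlM hlS) = a from
        Subtype.ext ((hχ l hl hlM hlS).trans ha.symm),
      Ideal.Quotient.eq.mpr ham, map_intCast]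
  have hrange : ∀ t, f' t ∈ ψ.range := by
    rintro ⟨t, ht⟩
    induction ht using Algebra.adjoin_induction with
    | mem x hx =>
      rcases hx with ⟨l, hl, hlN, hlS, rfl⟩ | ⟨q', hqN, hq', hqS, rfl⟩
      · exact ⟨(W.apOfModel l : ZMod p), (hval l hl hlN hlS).symm⟩
      · exact absurd (hMS q' hq' hqN) hqS
    | algebraMap z =>
      show f' (algebraMap ℤ (CuspForm.heckeAlgebra M 2 (↑S : Set ℕ)) z) ∈ ψ.range
      rw [eq_intCast, map_intCast]
      exact intCast_mem _ _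
    | add x y hx' hy' hx hy =>
      show f' (⟨x, hx'⟩ + ⟨y, hy'⟩) ∈ ψ.range
      rw [map_add]
      exact add_mem hx hy
    | mul x y hx' hy' hx hy =>
      show f' (⟨x, hx'⟩ * ⟨y, hy'⟩) ∈ ψ.range
      rw [map_mul]
      exact mul_mem hx hy
  let e := RingEquiv.ofBijective ψ.rangeRestrict
    ⟨fun x y h => ψ.injective (congrArg Subtype.val h), ψ.rangeRestrict_surjective⟩
  refine ⟨e.symm.toRingHom.comp (f'.codRestrict ψ.range hrange), fun l hl hlN hlS => ?_⟩
  refine e.injective ?_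
  show e (e.symm _) = e _
  rw [RingEquiv.apply_symm_apply]
  exact Subtype.ext (hval l hl hlN hlS)

end Fermat.Agent.R59.Scalar
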