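/-
S59, unit F2: the setting at the last level attached to a model `W`.
-/
import Fermat.Agent.R59.Scalar.Defs
import Fermat.Agent.R59.Scalar.Theta
import Fermat.Agent.R59.Seed.Residual
import Fermat.Agent.R59.Seed.Transfer
import Fermat.Agent.R59.Lower.Defs
import Fermat.Agent.R59.Mazur.Eigen
import Fermat.Agent.R59.ThreeTW
import Fermat.Agent.Auto.New.Theta
import Fermat.Agent.GD.TW56.BaseChange

set_option autoImplicit false
set_option linter.style.haveILetI false
set_option linter.unusedSectionVars false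

noncomputable section

open IsLocalRing WeierstrassCurve
open scoped Pointwise
open Fermat.Agent.Deform
open Fermat.Agent.Galois (GQ)

namespace Fermat.Agent.R59.Scalar

variable {W : WeierstrassCurve ℤ} {p : ℕ} [Fact p.Prime] {k : Type} [Field k] [CharP k p]
  {ρbar : ResidualGaloisRep k}

/-- An element acting by a scalar on `W[p]` acts by a scalar residually. -/
theorem exists_scalar (T : TateData W p) (hΔ : W.Δ ≠ 0) (h : RHasMatrix ρbar (baseMat T)) {σ : GQ}
    {c : ℤ} (hc : ∀ x : ETors W p, σ • x = c • x) : ∃ c' : k, ρbar.ρ σ = c' • 1 := by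
  obtain ⟨b₀, hb₀⟩ := T.rhasMatrix_tors hΔ
  obtain ⟨b, hb⟩ := h
  refine ⟨(c : k), (LinearMap.toMatrixAlgEquiv b).injective ?_⟩
  rw [map_smul, map_one]
  have h0 : (torsResidual W p hΔ).ρ σ = (c : ZMod p) • 1 := LinearMap.ext fun x => by
    rw [LinearMap.smul_apply, Module.End.one_apply, Int.cast_smul_eq_zsmul]
    exact hc x
  refine (hb σ).trans ?_
  show (mapHom (ZMod.castHom (dvd_refl p) k)) (((mapHom PadicInt.toZMod).comp T.r) σ) = _
  rw [← hb₀ σ, h0, map_smul, show LinearMap.toMatrix b₀ b₀ 1 = 1 from LinearMap.toMatrix_one b₀]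
  ext i j
  rcases eq_or_ne i j with rfl | hij
  · simp [mapHom_apply]
  · simp [mapHom_apply, Matrix.one_apply_ne hij]

variable (W)

set_option maxHeartbeats 1600000 in
/-- The setting exists when the removable primes are scalar and `l` cannot be removed. -/
theorem exists_setting (hΔ : W.Δ ≠ 0) (hW : W.IsSemistableModel)
    (hp : p = 3 ∨ p = 5) (hirr : W.ModRepIsIrreducible p) {l m : ℕ} [NeZero (l * m)] (hl : l.Prime)
    (hlp : l ≠ p) (hsq : Squarefree (l * m)) (hunr : p ∣ padicValInt l W.Δ)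
    (hpm : p ∣ m → ¬ p ∣ padicValInt p W.Δ) (hneat : NeatFor W p m) (R : Finset ℕ)
    (hR : ∀ r ∈ R, r.Prime ∧ r ≠ p ∧ ¬ (r : ℤ) ∣ W.Δ ∧ ¬ r ≡ 1 [MOD p] ∧
      ¬ (p : ℤ) ∣ W.apOfModel r ^ 2 - ((r : ℤ) + 1) ^ 2)
    (hothers : ∀ l' : ℕ, l'.Prime → l' ∣ l * m → l' ∉ R → p ∣ padicValInt l' W.Δ →
      l' ≠ p ∧ (l' : ZMod p) = 1 ∧ ∃ A : ValuationSubring (AlgebraicClosure ℚ),
        A.LiesOverPrime l' ∧ ¬ DecompNonScalar W p A)
    (hl1 : (l : ZMod p) = 1)
    (hres : W.IsResiduallyModularOfLevel p (l * m))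
    (hnot : ¬ W.IsResiduallyModularOfLevel p m) :
    ∃ (O : Type) (_ : CommRing O) (_ : IsDomain O) (_ : IsDiscreteValuationRing O)
      (_ : IsAdicComplete (maximalIdeal O) O) (_ : Finite (ResidueField O))
      (_ : Algebra ℤ_[p] O) (_ : Module.Finite ℤ_[p] O) (_ : CharZero O)
      (ρbar : ResidualGaloisRep (ResidueField O)) (S sig aux : Finset ℕ) (a : ℕ → O),
      Setting p O ρbar (l * m) S sig aux l a := by
  classical
  have hpp : p.Prime := Fact.out
  have hp2 : p ≠ 2 := by omega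
  haveI := ConductorMatch.isElliptic_pts W hΔ
  set N := l * m with hN
  obtain ⟨-, -, -, -, -, -, hind, -⟩ := exists_residual_system W hΔ hp2 hres
  obtain ⟨O, iO₁, iO₂, iO₃, iO₄, iO₅, iO₆, iO₇, iO₈, ζ, i₀, hchar, hζ, hi₀, g, hg⟩ :=
    LL.exists_coeff p hp2
  haveI := hchar
  set k := ResidueField O
  set ψ := ZMod.castHom (dvd_refl p) k with hψdef
  have hres0 : ∀ x : ℤ_[p], ¬ IsUnit x → residue O (algebraMap ℤ_[p] O x) = 0 := fun x hx => by
    have hmem : x ∈ maximalIdeal ℤ_[p] := hx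
    rw [PadicInt.maximalIdeal_eq_span_p, Ideal.mem_span_singleton] at hmem
    obtain ⟨c, rfl⟩ := hmem
    rw [map_mul, map_mul, map_natCast, map_natCast, CharP.cast_eq_zero, zero_mul]
  have hχk : IsLocalHom ((residue O).comp (algebraMap ℤ_[p] O)) := ⟨fun x hx => by
    by_contra h
    exact hx.ne_zero (hres0 x h)⟩
  obtain ⟨T⟩ := exists_tateData W p hΔ
  set ρbar : ResidualGaloisRep k :=
    (T.rep.baseChangeAlong ((residue O).comp (algebraMap ℤ_[p] O)) hχk).toResidualGaloisRep
  have hM₁ : RHasMatrix ρbar (baseMat T) := by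
    obtain ⟨b, hb⟩ := T.hasMatrix.baseChangeAlong ((residue O).comp (algebraMap ℤ_[p] O)) hχk
    refine ⟨b, fun σ => (hb σ).trans (Matrix.ext fun i j => ?_)⟩
    exact TateData.ringHom_padic_ext ((residue O).comp (algebraMap ℤ_[p] O))
      (ψ.comp PadicInt.toZMod) (CharP.cast_eq_zero k p) _
  have he : ρbar.IsEquiv ((torsResidual W p hΔ).baseChangeAlong ψ) :=
    hM₁.isEquiv ((T.rhasMatrix_tors hΔ).baseChangeAlong ψ)
  have hcp := charpoly_baseMat T hΔ hM₁ hp2
  have hdetk : (GaloisRepAdic.ofResidualGaloisRep ρbar).DetIsCyclotomic p :=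
    TW56.detIsCyclotomic_baseChange hχk (T.detIsCyclotomic hp2 hΔ)
  have hordk : (p : ℤ) ∣ W.Δ → (GaloisRepAdic.ofResidualGaloisRep ρbar).IsOrdinaryAt p := fun h => by
    have hh := (TW56.isStrictOrdinaryAt_baseChange hχk
      (T.isStrictOrdinaryAt hp2 hΔ h (hW p hpp h))).isOrdinaryAt
    exact hh
  -- the primes
  set bad := W.Δ.natAbs.primeFactors with hbad
  set S := insert p (N.primeFactors ∪ bad) with hSdef
  set sig := N.primeFactors.filter (fun l' => l' ∉ R ∧ p ∣ padicValInt l' W.Δ) with hsigdef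
  set aux := R.filter (· ∣ N) with hauxdef
  have hNS : ∀ l' : ℕ, l'.Prime → l' ∣ N → l' ∈ S := fun l' h h' =>
    Finset.mem_insert_of_mem (Finset.mem_union_left _ (Nat.mem_primeFactors.mpr ⟨h, h', NeZero.ne N⟩))
  have hSgood : ∀ l' : ℕ, l'.Prime → l' ∉ S → W.IsGoodPrimeFor l' ∧ l' ≠ p := fun l' h hS' =>
    ⟨fun hd => hS' (Finset.mem_insert_of_mem (Finset.mem_union_right _
      (Nat.mem_primeFactors.mpr ⟨h, Int.natCast_dvd.mp hd, Int.natAbs_ne_zero.mpr hΔ⟩))),
      fun e => hS' (e ▸ Finset.mem_insert_self _ _)⟩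
  have hsig : ∀ l', l' ∈ sig ↔ (l'.Prime ∧ l' ∣ N) ∧ l' ∉ R ∧ p ∣ padicValInt l' W.Δ := fun l' => by
    rw [hsigdef, Finset.mem_filter, Nat.mem_primeFactors_of_ne_zero (NeZero.ne N)]
  have hpR : p ∉ R := fun h => (hR p h).2.1 rfl
  have hlR : l ∉ R := fun h => (hR l h).2.2.2.1
    ((ZMod.natCast_eq_natCast_iff l 1 p).mp (by rw [Nat.cast_one]; exact hl1))
  have hpN : p ∣ N → (p : ℤ) ∣ W.Δ ∧ ¬ p ∣ padicValInt p W.Δ := fun h => by
    have hpm' := (hpp.dvd_mul.mp h).resolve_left fun h' =>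
      hlp ((Nat.prime_dvd_prime_iff_eq hpp hl).mp h').symm
    refine ⟨by_contra fun hd => hpm hpm' ?_, hpm hpm'⟩
    rw [padicValInt.eq_zero_of_not_dvd hd]
    exact dvd_zero p
  have hunr' : ∀ l' : ℕ, l'.Prime → l' ≠ p → p ∣ padicValInt l' W.Δ → ρbar.IsUnramifiedAt l' :=
    fun l' h h' hv => (unramified_iff_tors T hΔ hM₁).2
      ((isUnramifiedAt_torsResidual_iff W hΔ hW hp2 h h').2 hv)
  -- the traces
  let a : ℕ → O := fun l' =>
    if (l' : ℤ) ∣ W.Δ then
      (if h : ∃ A : ValuationSubring (AlgebraicClosure ℚ), A.LiesOverPrime l' ∧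
        ∃ σ : GQ, A.IsFrobeniusAt σ l' then
        ((trE W p h.choose_spec.2.choose).val : O) else 0)
    else (W.apOfModel l' : O)
  have ha : ∀ l' : ℕ, ¬ (l' : ℤ) ∣ W.Δ → a l' = (W.apOfModel l' : O) := fun l' h => if_neg h
  have hcpf : ∀ l' : ℕ, l'.Prime → l' ≠ p → (¬ l' ∣ N ∨ ¬ (l' : ℤ) ∣ W.Δ) →
      ∀ A : ValuationSubring (AlgebraicClosure ℚ), A.LiesOverPrime l' →
        ∀ σ : GQ, A.IsFrobeniusAt σ l' → LinearMap.charpoly (ρbar.ρ σ) = Polynomial.X ^ 2 -
          Polynomial.C (residue O (a l')) * Polynomial.X + Polynomial.C (l' : k) := by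
    intro l' h' hne hor A hA σ hσ
    rw [hcp σ, omg_frobenius p h' hne hA hσ, map_natCast]
    congr 3
    by_cases hd : (l' : ℤ) ∣ W.Δ
    · have hlN : ¬ l' ∣ N := hor.resolve_right (fun h => h hd)
      have h : ∃ A : ValuationSubring (AlgebraicClosure ℚ), A.LiesOverPrime l' ∧
        ∃ σ : GQ, A.IsFrobeniusAt σ l' := ⟨A, hA, σ, hσ⟩
      rw [show a l' = ((trE W p h.choose_spec.2.choose).val : O) from (if_pos hd).trans (dif_pos h),
        map_natCast, ← map_natCast ψ, ZMod.natCast_zmod_val,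
        hind l' h' hlN hne A hA σ hσ _ h.choose_spec.1 _ h.choose_spec.2.choose_spec]
    · rw [ha l' hd, map_intCast, (trE_frobenius p W hp2 hΔ h' hd hne hA hσ).1, map_intCast]
  obtain ⟨θ, hθ⟩ := exists_theta W hres S hNS hSgood
  have hlev : Levels.Setting p O ρbar N S a :=
    { ne_two := hp2
      p_mem := Finset.mem_insert_self _ _
      level_mem := hNS
      neat := fun h3 => by
        obtain ⟨r, hr, hrm, hr3, -⟩ := hneat h3
        exact ⟨r, hr, hrm.mul_left l, hr3⟩
      absIrr := absIrr_of_isEquiv W hΔ hW hp hirr ρbar ψ he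
      charpoly_frob := fun l' h h' hN' => hcpf l' h h' (Or.inl hN')
      ne_bot := by
        refine Auto.latLoc_ne_bot_aux (ψ.comp θ) fun l' h hN' hS' => ?_
        rw [RingHom.comp_apply, hθ, map_intCast, ha l' (hSgood l' h hS').1, map_intCast] }
  refine ⟨O, iO₁, iO₂, iO₃, iO₄, iO₅, iO₆, iO₇, iO₈, ρbar, S, sig, aux, a,
    { levels := hlev
      prime_S := fun l' h => by
        simp only [hSdef, Finset.mem_insert, Finset.mem_union] at h
        rcases h with rfl | h | h
        exacts [hpp, Nat.prime_of_mem_primeFactors h, Nat.prime_of_mem_primeFactors h]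
      squarefree := hsq
      exists_zeta := ⟨ζ, hζ⟩
      sqrt_neg_one := ⟨i₀, hi₀⟩
      twHyp := fun b =>
        { odd := hp2
          finite_level := by
            obtain ⟨L, hL, h⟩ := ρbar.factorsThroughFiniteLevel
            exact ⟨L, hL, fun σ hσ => by rw [LL.resMat_apply, h σ hσ, map_one]⟩
          det_cyclotomic := fun σ c hσ => by
            have h := hdetk.2 1 σ c (by simpa using hσ)
            rw [pow_one, CharP.cast_eq_zero k p, Ideal.span_singleton_eq_bot.mpr rfl, Ideal.mem_bot,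
              sub_eq_zero] at h
            rw [← h]
            exact LinearMap.det_toMatrix b (ρbar.ρ σ)
          split := fun σ => by
            obtain ⟨α, β, h⟩ := LL.exists_roots_of_primitive hp2 hg (trE W p σ) (omg p σ)
            exact ⟨α, β, (LinearMap.charpoly_toMatrix (ρbar.ρ σ) b).trans ((hcp σ).trans h)⟩
          irreducible := twIrreducible_of_isEquiv W hΔ hW hp hirr ρbar ψ he b }
      sig_spec := fun l' h => by
        obtain ⟨⟨h1, h2⟩, h3, h4⟩ := (hsig l').1 h
        obtain ⟨hne, hone, -⟩ := hothers l' h1 h2 h3 h4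
        exact ⟨h1, h2, hne, (ZMod.natCast_eq_natCast_iff l' 1 p).mp (by
          rw [Nat.cast_one]; exact hone), hunr' l' h1 hne h4⟩
      scalar := fun l' h A' hA' σ hσ => by
        obtain ⟨⟨h1, h2⟩, h3, h4⟩ := (hsig l').1 h
        obtain ⟨-, -, A, hA, hns⟩ := hothers l' h1 h2 h3 h4
        simp only [DecompNonScalar] at hns
        push Not at hns
        obtain ⟨t, rfl⟩ := Galois.exists_smul_eq_of_liesOverPrime h1 hA hA'
        have hd : t⁻¹ * σ * t ∈ A.decompositionSubgroup ℚ := by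
          have hs : σ • t • A = t • A := hσ
          show (t⁻¹ * σ * t) • A = A
          rw [mul_smul, mul_smul, hs, inv_smul_smul]
        obtain ⟨c, hc⟩ := hns _ hd
        refine exists_scalar T hΔ hM₁ (c := c) fun x => ?_
        have h1' := congrArg (fun y : ETors W p => t • y) (hc (t⁻¹ • x))
        simp only [← mul_smul] at h1'
        rw [show t * (t⁻¹ * σ * t * t⁻¹) = σ by group, smul_comm t c (t⁻¹ • x), smul_inv_smul] at h1'
        exact h1'
      q_mem := (hsig l).2 ⟨⟨hl, dvd_mul_right l m⟩, hlR, hunr⟩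
      not_lower := ?_
      aux_spec := fun r h => by
        obtain ⟨hrR, hrN⟩ := Finset.mem_filter.1 h
        obtain ⟨hr, hrp, hrΔ, hr1, hr2⟩ := hR r hrR
        refine ⟨hr, hrp, hrN, fun hs => ((hsig r).1 hs).2.1 hrR,
          hunr' r hr hrp (by rw [padicValInt.eq_zero_of_not_dvd hrΔ]; exact dvd_zero p), ?_,
          residue O (a r), ?_, hcpf r hr hrp (Or.inr hrΔ)⟩
        · rw [← Nat.cast_one, Ne, CharP.natCast_eq_natCast k p]
          exact hr1
        · rw [ha r hrΔ, map_intCast, ← sub_ne_zero]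
          intro h0
          refine hr2 ((CharP.intCast_eq_zero_iff k p _).1 ?_)
          push_cast
          exact h0
      unramified := fun l' h h' hN' => hunr' l' h h'
        (by_contra fun hv => hN' (dvd_level_of_ramified W hΔ hW hp hirr hres h h' hv))
      ramified := fun l' h h' hN' hs hax => by
        have hlR' : l' ∉ R := fun hh => hax (Finset.mem_filter.2 ⟨hh, hN'⟩)
        have hv : ¬ p ∣ padicValInt l' W.Δ := fun hv => hs ((hsig l').2 ⟨⟨h, hN'⟩, hlR', hv⟩)
        exact ⟨fun hu => hv ((isUnramifiedAt_torsResidual_iff W hΔ hW hp2 h h').1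
          ((unramified_iff_tors T hΔ hM₁).1 hu)),
          TW56.isUnipotentOnInertiaAt_baseChange hχk (T.unipotent hp2 hΔ hW h h')⟩
      ordinary := fun h => hordk (hpN h).1
      not_flat := fun h => not_isFlatAt_baseMat T hΔ hM₁ hW hp (hpN h).1 (hpN h).2 }⟩
  intro _ S' hSS' θ'
  by_contra hcon
  push Not at hcon
  refine hnot ?_
  have h := residuallyModular_of_theta p W hp2 hΔ S'
    (fun l' h hS' => hSgood l' h fun hh => hS' (hSS' hh))
    (fun l' h hd => hSS' (hNS l' h (hd.trans (Nat.div_dvd_of_dvd (dvd_mul_right l m))))) θ'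
    (fun l' h hm' hS' => by
      rw [hcon l' h hm' hS',
        ha l' (hSgood l' h fun hh => hS' (Finset.mem_coe.2 (hSS' hh))).1, map_intCast])
  rwa [hN, Nat.mul_div_cancel_left m hl.pos] at h

end Fermat.Agent.R59.Scalar
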