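/-
S59, unit F2: the matrices of the representation over the Hecke ring against the residual ones.
-/
import Fermat.Agent.R59.Scalar.Defs
import Fermat.Agent.R59.Min.LevelLift

set_option autoImplicit false
set_option linter.unusedSectionVars false

noncomputable section

open IsLocalRing
open Fermat.Agent.Galois (GQ)
open Fermat.Agent.Deform (Mat2 HasMatrix RHasMatrix mapHom)

namespace Fermat.Agent.R59.Scalar

variable {p : ℕ} [Fact p.Prime] {O : Type} [CommRing O] [IsDomain O] [IsDiscreteValuationRing O]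
  [IsAdicComplete (maximalIdeal O) O] [Finite (ResidueField O)]
  [Algebra ℤ_[p] O] [Module.Finite ℤ_[p] O] [CharZero O]
  {ρbar : ResidualGaloisRep (ResidueField O)} {N : ℕ} {S sig Q : Finset ℕ} {q n : ℕ}

/-- The matrices of the representation in a basis. -/
def levelMat (X : Out p O ρbar N S sig Q q n) (b : Module.Basis (Fin 2) X.T X.ρ.V) :
    GQ →* Mat2 X.T :=
  MonoidHom.comp (LinearMap.toMatrixAlgEquiv b).toMulEquiv.toMonoidHom X.ρ.ρ

theorem levelMat_apply (X : Out p O ρbar N S sig Q q n)
    (b : Module.Basis (Fin 2) X.T X.ρ.V) (σ : GQ) :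
    levelMat X b σ = LinearMap.toMatrixAlgEquiv b (X.ρ.ρ σ) := rfl

/-- Modulo the maximal ideal the matrices are conjugate to those of the residual representation. -/
theorem exists_residual_conj (X : Out p O ρbar N S sig Q q n)
    (b : Module.Basis (Fin 2) X.T X.ρ.V)
    (b₀ : Module.Basis (Fin 2) (ResidueField O) ρbar.V) :
    ∃ U : (Mat2 (ResidueField X.T))ˣ, ∀ σ, (levelMat X b σ).map (residue X.T) * U =
      U * (LL.resMat ρbar b₀ σ).map (ResidueField.map (algebraMap O X.T)) := by
  have h1 : HasMatrix X.ρ (levelMat X b) := ⟨b, fun σ => rfl⟩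
  have h2 : RHasMatrix ρbar (LL.resMat ρbar b₀) := ⟨b₀, fun σ => rfl⟩
  exact ((h1.residual).of_equiv X.residual).exists_conj
    (h2.baseChangeAlong (ResidueField.map (algebraMap O X.T)))

/-- Scalars stay scalars. -/
theorem map_residue_of_scalar (X : Out p O ρbar N S sig Q q n)
    (b : Module.Basis (Fin 2) X.T X.ρ.V) {σ : GQ} {c : ResidueField O} (h : ρbar.ρ σ = c • 1) :
    (levelMat X b σ).map (residue X.T) = ResidueField.map (algebraMap O X.T) c • 1 := by
  obtain ⟨U, hU⟩ := exists_residual_conj X b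
    (Module.finBasisOfFinrankEq (ResidueField O) ρbar.V ρbar.finrank_eq)
  have h' := hU σ
  rw [LL.resMat_apply, h, map_smul, map_one] at h'
  have h'' : (c • (1 : Mat2 (ResidueField O))).map (ResidueField.map (algebraMap O X.T)) =
      ResidueField.map (algebraMap O X.T) c • (1 : Mat2 (ResidueField X.T)) := by
    ext i j
    simp [Matrix.one_apply, apply_ite (ResidueField.map (algebraMap O X.T))]
  rw [h'', mul_smul_comm, mul_one, ← one_mul (U : Mat2 (ResidueField X.T)), ← smul_mul_assoc,
    one_mul] at h'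
  exact U.isUnit.mul_right_cancel h'

theorem det_levelMat (X : Out p O ρbar N S sig Q q n)
    (b : Module.Basis (Fin 2) X.T X.ρ.V) (σ : GQ) :
    (levelMat X b σ).det = algebraMap O X.T (algebraMap ℤ_[p] O (GalRep.cyc p σ : ℤ_[p])) := by
  rw [← X.det_eq, levelMat_apply]
  exact LinearMap.det_toMatrix b (X.ρ.ρ σ)

theorem trace_levelMat (X : Out p O ρbar N S sig Q q n)
    (b : Module.Basis (Fin 2) X.T X.ρ.V) (σ : GQ) : (levelMat X b σ).trace = X.ρ.trace σ :=
  (LinearMap.trace_eq_matrix_trace X.T b (X.ρ.ρ σ)).symm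

end Fermat.Agent.R59.Scalar
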