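/-
S59, unit F2: consequences of the setting used by the count of generators.
-/
import Fermat.Agent.R59.Scalar.Residual
import Fermat.Agent.R59.Levels.Transfer
import Fermat.Agent.R59.Min.AuxUnramified
import Fermat.Agent.R59.Min.Generators
import Fermat.Agent.GD.TW56.Main

set_option autoImplicit false
set_option linter.style.haveILetI false
set_option linter.unusedSectionVars false

noncomputable section

open IsLocalRing
open Fermat.Agent.Galois (GQ)
open Fermat.Agent.Deform (Mat2 HasMatrix)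

namespace Fermat.Agent.R59.Scalar

variable {p : ℕ} [Fact p.Prime] (O : Type) [CommRing O] [IsDomain O] [IsDiscreteValuationRing O]
  [IsAdicComplete (maximalIdeal O) O] [Finite (ResidueField O)]
  [Algebra ℤ_[p] O] [Module.Finite ℤ_[p] O] [CharZero O]

/-- The residue characteristic is `p`. -/
theorem natCast_mem : (p : O) ∈ maximalIdeal O := by
  rw [mem_maximalIdeal, mem_nonunits_iff]
  intro hu
  have hmax : (maximalIdeal O).comap (algebraMap ℤ_[p] O) = maximalIdeal ℤ_[p] :=
    IsLocalRing.eq_maximalIdeal (Ideal.isMaximal_comap_of_isIntegral_of_isMaximal _)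
  have hmem : (p : ℤ_[p]) ∈ maximalIdeal ℤ_[p] := PadicInt.p_nonunit
  rw [← hmax, Ideal.mem_comap, map_natCast] at hmem
  exact hmem hu

/-- The primes where the residual representation is ramified. -/
def ramPrimes (p N : ℕ) (sig aux : Finset ℕ) : Finset ℕ :=
  N.primeFactors.filter fun l => l ≠ p ∧ l ∉ sig ∧ l ∉ aux

theorem mem_ramPrimes {p N : ℕ} [NeZero N] {sig aux : Finset ℕ} {l : ℕ} :
    l ∈ ramPrimes p N sig aux ↔ l.Prime ∧ l ≠ p ∧ l ∣ N ∧ l ∉ sig ∧ l ∉ aux := by
  simp only [ramPrimes, Finset.mem_filter, Nat.mem_primeFactors_of_ne_zero (NeZero.ne N)]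
  tauto

variable {O} {ρbar : ResidualGaloisRep (ResidueField O)} {N : ℕ} [NeZero N]
  {S sig aux Q : Finset ℕ} {q n : ℕ} {a : ℕ → O}

/-- Residually unramified away from `p` and the ramified primes. -/
theorem unramified_residual (H : Setting p O ρbar N S sig aux q a) {l : ℕ} (hl : l.Prime)
    (hlp : l ≠ p) (hlU : l ∉ ramPrimes p N sig aux) : ρbar.IsUnramifiedAt l := by
  by_cases hN : l ∣ N
  · by_cases hs : l ∈ sig
    · exact fun A hA σ hσ => (H.sig_spec l hs).2.2.2.2 A hA σ hσ
    by_cases ha : l ∈ aux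
    · exact (H.aux_spec l ha).2.2.2.2.1
    · exact absurd (mem_ramPrimes.mpr ⟨hl, hlp, hN, hs, ha⟩) hlU
  · exact H.unramified l hl hlp hN

/-- The lift is unramified away from `p`, the ramified primes, `sig` and `Q`. -/
theorem unramified_out (H : Setting p O ρbar N S sig aux q a) (X : Out p O ρbar N S sig Q q n)
    {l : ℕ} (hl : l.Prime) (hlp : l ≠ p) (hlU : l ∉ ramPrimes p N sig aux) (hls : l ∉ sig)
    (hlQ : l ∉ Q) : X.ρ.IsUnramifiedAt l := by
  by_cases hN : l ∣ N
  · by_cases ha : l ∈ aux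
    · obtain ⟨-, -, -, -, hun, h1, t, ht, hfrob⟩ := H.aux_spec l ha
      haveI : CharP (ResidueField O) p := charP_residue (natCast_mem O)
      have h0 : (l : ResidueField O) ≠ 0 := fun h => hlp
        ((Nat.prime_dvd_prime_iff_eq Fact.out hl).mp ((CharP.cast_eq_zero_iff _ p l).mp h)).symm
      exact isUnramifiedAt_of_unipotent X.residual hl hun hfrob h0 h1 ht
        (X.unipotent l hl hlp hN hls)
    · exact absurd (mem_ramPrimes.mpr ⟨hl, hlp, hN, hls, ha⟩) hlU
  · exact X.unramified l hl hlp hN hlQ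

theorem det_cyclotomic (X : Out p O ρbar N S sig Q q n) : X.ρ.DetIsCyclotomic p :=
  Levels.detIsCyclotomic_of_eq X.ρ
    (by rw [← map_natCast (algebraMap O X.T)]; exact map_nonunit _ _ (natCast_mem O)) X.det_eq

variable {M : Type} [AddCommGroup M] [DistribMulAction GQ M]

local instance instLDScalarFacts (v : GD.Place) : DistribMulAction (GD.LD v).G M :=
  inferInstanceAs (DistribMulAction (GD.decomp v) M)

/-- The condition at `p`. -/
theorem exists_atP (H : Setting p O ρbar N S sig aux q a) (X : Out p O ρbar N S sig Q q n)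
    {R : GQ →* Mat2 (ResidueField O)} (hTW : TW.TWHyp p R) {π : X.T →+* ResidueField O}
    (hπO : ∀ o, π (algebraMap O X.T o) = residue O o) {r : GQ →* Mat2 X.T}
    (hr : HasMatrix X.ρ r) (hR : ∀ σ, (r σ).map π = R σ) {v : Nat.Primes} (hv : (v : ℕ) = p)
    (hsm : (GD.LD (some v)).Smooth (GD.Ad0 R)) :
    ∃ Lp : AddSubgroup ((GD.LD (some v)).Z1 (GD.Ad0 R)),
      ((GD.LD (some v)).B1 (GD.Ad0 R)).addSubgroupOf ((GD.LD (some v)).Z1 (GD.Ad0 R)) ≤ Lp ∧
      GD.cardClasses (GD.Ad0 R) (some v) Lp ≤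
        Nat.card ((GD.LD (some v)).fixed (GD.Ad0 R)) * Nat.card (ResidueField O) ∧
      ∀ (D : TW56.tanGroup O π) (x : (GD.LD (some v)).Z1 (GD.Ad0 R)),
        (∀ d : GD.decomp (some v), GD.Ad0.mat (x.1 d) = (TW56.toTan D).cocycle r R d) → x ∈ Lp := by
  haveI : CharP (ResidueField O) p := charP_residue (natCast_mem O)
  by_cases hpN : p ∣ N
  · have hψ : Function.Surjective (ResidueField.map (algebraMap O X.T)) := fun y => by
      obtain ⟨o, ho⟩ := X.residue_surjective y
      exact ⟨residue O o, by rw [ResidueField.map_residue]; exact ho⟩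
    exact TW56.exists_ordinary_cond H.levels.ne_two hTW
      (isStrictOrdinaryAt_of_not_flat (H.not_flat hpN) _ hψ X.residual (X.ordinary hpN)
        (det_cyclotomic X)) (det_cyclotomic X) hr hR hv hsm
  · exact TW56.exists_flat_cond H.levels.ne_two hTW (X.flat hpN) (det_cyclotomic X) hπO hr hR hv hsm

end Fermat.Agent.R59.Scalar
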