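/-
S59, unit F2: the Selmer count with trivial local conditions at the scalar primes, for any admissible
condition at `p`.
-/
import Fermat.Agent.LL.TWSel
import Fermat.Agent.GD.TW56.Classes

set_option autoImplicit false

noncomputable section

open Matrix
open Fermat.Agent.Galois (GQ)
open Fermat.Agent.Deform (Mat2)

namespace Fermat.Agent.R59.Scalar

variable {k : Type} [Field k]

/-- A class in the Selmer condition away from `p`: a trace-zero cocycle for the adjoint action,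
unramified outside `p`, `U`, `sig` and `Q`, unipotent on inertia at `U` and trivial on the
decomposition groups at `sig`. -/
structure IsSelClass (p : ℕ) (R : GQ →* Mat2 k) (U sig Q : Finset ℕ) (c : GQ → Mat2 k) :
    Prop where
  trace_eq_zero : ∀ σ, (c σ).trace = 0
  map_mul : ∀ σ τ, c (σ * τ) = c σ + R σ * c τ * R σ⁻¹
  finite_level : ∃ F : IntermediateField ℚ (AlgebraicClosure ℚ), FiniteDimensional ℚ F ∧
    ∀ σ : GQ, (∀ x ∈ F, σ x = x) → c σ = 0
  unramified : ∀ l : ℕ, l.Prime → l ≠ p → l ∉ U → l ∉ sig → l ∉ Q →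
    ∀ A : ValuationSubring (AlgebraicClosure ℚ), A.LiesOverPrime l →
      ∀ σ ∈ A.inertiaSubgroupIn ℚ, c σ = 0
  unipotent : ∀ l ∈ U, ∀ A : ValuationSubring (AlgebraicClosure ℚ), A.LiesOverPrime l →
    ∀ σ ∈ A.inertiaSubgroupIn ℚ, (c σ * R σ).trace = 0
  trivial_sig : ∀ l ∈ sig, ∀ A : ValuationSubring (AlgebraicClosure ℚ), A.LiesOverPrime l →
    ∀ σ ∈ A.decompositionSubgroup ℚ, c σ = 0

/-- A class in the condition as a cocycle of the adjoint module. -/
def IsSelClass.toAd0 {p : ℕ} {R : GQ →* Mat2 k} {U sig Q : Finset ℕ} {c : GQ → Mat2 k}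
    (hc : IsSelClass p R U sig Q c) (σ : GQ) : GD.Ad0 R :=
  (⟨c σ, GD.mem_sl2.mpr (hc.trace_eq_zero σ)⟩ : GD.sl2 k)

section

variable {M : Type} [AddCommGroup M] [DistribMulAction GQ M]

local instance instLTSel (T : Finset Nat.Primes) : DistribMulAction (GD.LT T).G M :=
  inferInstanceAs (DistribMulAction GQ M)

local instance instLDSel (v : GD.Place) : DistribMulAction (GD.LD v).G M :=
  inferInstanceAs (DistribMulAction (GD.decomp v) M)

variable {R : GQ →* Mat2 k}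

open Classical in
/-- The local conditions. -/
def selCond (p : ℕ) (R : GQ →* Mat2 k) (U sig : Finset ℕ) (Q : Finset Nat.Primes)
    (Lp : ∀ q : Nat.Primes, AddSubgroup ((GD.LD (some q)).Z1 (GD.Ad0 R))) :
    ∀ v : GD.Place, AddSubgroup ((GD.LD v).Z1 (GD.Ad0 R))
  | none => ⊤
  | some q =>
    if q ∈ Q then ⊤
    else if (q : ℕ) = p then Lp q
    else if (q : ℕ) ∈ sig then
      ((GD.LD (some q)).B1 (GD.Ad0 R)).addSubgroupOf ((GD.LD (some q)).Z1 (GD.Ad0 R))
    else if (q : ℕ) ∈ U then GD.unipCond R q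
    else GD.unramCond (GD.Ad0 R) q

/-- **Taylor-Wiles primes with a bound on the Selmer group.** -/
theorem exists_tw_sel {p : ℕ} [Fact p.Prime] (hp2 : p ≠ 2) [Finite k] [CharP k p]
    {R : GQ →* Mat2 k} (hR : TW.TWHyp p R) (S U sig : Finset ℕ) (hS : ∀ l ∈ S, l.Prime)
    (hpS : p ∈ S) (hUS : U ⊆ S) (hsigS : sig ⊆ S) (hpsig : p ∉ sig)
    (hscalar : ∀ l ∈ sig, ∀ A : ValuationSubring (AlgebraicClosure ℚ), A.LiesOverPrime l →
      ∀ σ ∈ A.decompositionSubgroup ℚ, ∃ c : k, R σ = c • 1)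
    (hunr : ∀ l : ℕ, l.Prime → l ≠ p → l ∉ U →
      ∀ A : ValuationSubring (AlgebraicClosure ℚ), A.LiesOverPrime l →
        ∀ σ ∈ A.inertiaSubgroupIn ℚ, R σ = 1)
    (hst : ∀ l ∈ U, l ≠ p → l ∉ sig →
      ∀ A : ValuationSubring (AlgebraicClosure ℚ), A.LiesOverPrime l →
        (∀ σ ∈ A.inertiaSubgroupIn ℚ, (R σ - 1) * (R σ - 1) = 0) ∧
        ∃ σ ∈ A.inertiaSubgroupIn ℚ, R σ ≠ 1) :
    ∃ r g₀ : ℕ, r = 3 * sig.card + g₀ ∧ ∀ n : ℕ, ∃ Q : Finset ℕ, Q.card = r ∧
      (∀ v ∈ Q, v.Prime ∧ v ∉ S ∧ v ≡ 1 [MOD p ^ (n + 1)] ∧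
        ∀ A : ValuationSubring (AlgebraicClosure ℚ), A.LiesOverPrime v →
          ∀ φ : GQ, A.IsFrobeniusAt φ v → (R φ).trace ^ 2 ≠ 4) ∧
      ∀ (m : ℕ) (c : Fin m → GQ → Mat2 k), (∀ i, IsSelClass p R U sig Q (c i)) →
        (∀ q : Nat.Primes, (q : ℕ) = p → (GD.LD (some q)).Smooth (GD.Ad0 R) →
          ∃ Lp : AddSubgroup ((GD.LD (some q)).Z1 (GD.Ad0 R)),
            ((GD.LD (some q)).B1 (GD.Ad0 R)).addSubgroupOf ((GD.LD (some q)).Z1 (GD.Ad0 R)) ≤ Lp ∧
            GD.cardClasses (GD.Ad0 R) (some q) Lp ≤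
              Nat.card ((GD.LD (some q)).fixed (GD.Ad0 R)) * Nat.card k ∧
            ∀ (a : Fin m → k) (x : (GD.LD (some q)).Z1 (GD.Ad0 R)),
              (∀ d : GD.decomp (some q), GD.Ad0.mat (x.1 d) = ∑ i, a i • c i (d : GQ)) → x ∈ Lp) →
        LL.IndepModCoboundary R c → m ≤ g₀ := by
  classical
  have hp : p.Prime := Fact.out
  haveI : NeZero p := ⟨hp.ne_zero⟩
  let S₀ : Finset Nat.Primes := S.subtype Nat.Prime
  have hmemS : ∀ q : Nat.Primes, q ∈ S₀ ↔ (q : ℕ) ∈ S := fun q => Finset.mem_subtype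
  have hpS₀ : (⟨p, Fact.out⟩ : Nat.Primes) ∈ S₀ := (hmemS _).mpr hpS
  have hunr' : ∀ q : Nat.Primes, q ∉ S₀ → ∀ A : ValuationSubring (AlgebraicClosure ℚ),
      A.LiesOverPrime (q : ℕ) → ∀ σ ∈ A.inertiaSubgroupIn ℚ, R σ = 1 :=
    fun q hq => hunr q q.2 (fun e => hq ((hmemS q).mpr (e ▸ hpS)))
      fun h => hq ((hmemS q).mpr (hUS h))
  obtain ⟨T₀, hST, r, hr, hr'⟩ :=
    GD.exists_taylorWiles_selmer hp2 hR S₀ hpS₀ hunr' (3 * sig.card)
  obtain ⟨N₀, hN₀, -, hN₀R⟩ := GD.exists_level_ker hpS₀ R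
    (by obtain ⟨F, hF, hF'⟩ := hR.finite_level; exact ⟨F, hF, hF'⟩) hunr'
  refine ⟨r, r - 3 * sig.card, by omega, fun n => ?_⟩
  obtain ⟨Q, hQc, hQd, hQP, hbound⟩ := hr' n
  refine ⟨Q.map ⟨fun q : Nat.Primes => (q : ℕ), Subtype.val_injective⟩,
    by rw [Finset.card_map, hQc], ?_, ?_⟩
  · intro v hv
    obtain ⟨q, hq, rfl⟩ := Finset.mem_map.mp hv
    obtain ⟨hdvd, hfr⟩ := hQP q hq
    refine ⟨q.2, fun h => Finset.disjoint_left.mp hQd hq (hST ((hmemS q).mpr h)),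
      ((Nat.modEq_iff_dvd' q.2.pos).mpr hdvd).symm, fun A hA φ hφ htr => ?_⟩
    obtain ⟨α, β, hab, hchar⟩ := hfr A hA φ hφ
    have hqp : q ≠ ⟨p, Fact.out⟩ := fun e =>
      Finset.disjoint_left.mp hQd hq (hST (e ▸ hpS₀))
    have hdet : (R φ).det = 1 := by
      rw [hR.det_cyclotomic φ (q : ℕ) fun μ hμ => GD.frobenius_apply_mu hqp hA hφ hμ]
      obtain ⟨e, he⟩ := (dvd_pow_self p n.succ_ne_zero).trans hdvd
      rw [show (q : ℕ) = p * e + 1 by have := q.2.pos; omega, Nat.cast_add, Nat.cast_mul,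
        CharP.cast_eq_zero, zero_mul, zero_add, Nat.cast_one]
    rw [Matrix.charpoly_fin_two, hdet] at hchar
    have h1 := congrArg (Polynomial.eval α) hchar
    have h2 := congrArg (Polynomial.eval β) hchar
    simp at h1 h2
    have ht : (R φ).trace = α + β :=
      mul_left_cancel₀ (sub_ne_zero.mpr hab) (by linear_combination h2 - h1)
    rw [ht] at h1 htr
    refine hab (sub_eq_zero.mp ((pow_eq_zero_iff two_ne_zero).mp ?_))
    linear_combination htr + 4 * h1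
  intro m c hc hLp hind
  set Qn : Finset ℕ := Q.map ⟨fun q : Nat.Primes => (q : ℕ), Subtype.val_injective⟩ with hQn
  have hQn' : ∀ q : Nat.Primes, (q : ℕ) ∈ Qn ↔ q ∈ Q := fun q =>
    ⟨fun h => by obtain ⟨q', hq', e⟩ := Finset.mem_map.mp h; rwa [← Subtype.ext e],
      fun h => Finset.mem_map.mpr ⟨q, h, rfl⟩⟩
  set T := T₀ ∪ Q with hT
  have htriv : ∀ q : Nat.Primes, (q : ℕ) ≠ p → (q : ℕ) ∉ U →
      ∀ σ ∈ (GD.placeAt q).inertiaSubgroupIn ℚ, ∀ x : GD.Ad0 R, σ • x = x := fun q hqp hq σ hσ x =>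
    GD.Ad0.smul_eq_self (hunr q q.2 hqp hq _ (GD.placeAt_liesOverPrime q) σ hσ) x
  have hN₀T : (GD.LT T).IsLevel N₀ :=
    GD.isLevel_mono (hST.trans Finset.subset_union_left) hN₀
  have hN₀M : ∀ s ∈ N₀, ∀ x : GD.Ad0 R, s • x = x := fun s hs x =>
    GD.Ad0.smul_eq_self (hN₀R s hs) x
  have hsm : ∀ v, (GD.LD v).Smooth (GD.Ad0 R) := GD.smooth_local (T := T) hN₀T hN₀M
  choose Lp₀ hB hcard hmem using fun (q : Nat.Primes) (hq : (q : ℕ) = p) => hLp q hq (hsm (some q))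
  let Lp : ∀ q : Nat.Primes, AddSubgroup ((GD.LD (some q)).Z1 (GD.Ad0 R)) := fun q =>
    if hq : (q : ℕ) = p then Lp₀ q hq else ⊤
  have hLeq : ∀ (q : Nat.Primes) (hq : (q : ℕ) = p), Lp q = Lp₀ q hq := fun q hq => dif_pos hq
  let L := selCond p R U sig Q Lp
  have hL : ∀ v, ((GD.LD v).B1 (GD.Ad0 R)).addSubgroupOf ((GD.LD v).Z1 (GD.Ad0 R)) ≤ L v := by
    rintro (_ | q)
    · exact le_top
    · show _ ≤ selCond p R U sig Q Lp (some q)
      simp only [selCond]
      split_ifs with h1 h2 h3 h4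
      · exact le_top
      · exact (hLeq q h2).symm ▸ hB q h2
      · exact le_rfl
      · exact GD.b1_le_unipCond q
      · exact GD.b1_le_unramCond (htriv q h2 h4)
  set K := Nat.card k with hK
  set h0 : Nat.Primes → ℕ := fun q => Nat.card ((GD.LD (some q)).fixed (GD.Ad0 R)) with hh0
  obtain ⟨hfin, hle⟩ := hbound L hL (fun q hq => if_pos hq)
    (fun q => if (q : ℕ) ∈ sig then 3 else 0) (fun q => if (q : ℕ) = p then 1 else 0) fun q hq => by
    have hqQ : q ∉ Q := fun h => Finset.disjoint_left.mp hQd h hq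
    show GD.cardClasses (GD.Ad0 R) (some q) (selCond p R U sig Q Lp (some q)) * _ ≤ _
    simp only [selCond, if_neg hqQ]
    by_cases h2 : (q : ℕ) = p
    · have hq' : (q : ℕ) ∉ sig := fun h => hpsig (h2 ▸ h)
      simp only [if_pos h2, if_neg hq', pow_zero, mul_one, pow_one]
      rw [hLeq q h2]
      exact hcard q h2
    simp only [if_neg h2, pow_zero, mul_one]
    by_cases h3 : (q : ℕ) ∈ sig
    · simp only [if_pos h3]
      refine ((congrArg (· * _) (GD.cardClasses_bot _)).trans (one_mul _)).trans_le ?_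
      rw [← GD.card_ad0 (R := R)]
      refine le_of_eq (Nat.card_congr (Equiv.subtypeUnivEquiv fun x => ?_)).symm
      intro (d : GD.decomp (some q))
      obtain ⟨a, ha⟩ :=
        hscalar q h3 _ (GD.placeAt_liesOverPrime q) _ (d : GD.decomp (some q)).2
      refine GD.Ad0.mat_injective ?_
      show R _ * GD.Ad0.mat x * R _⁻¹ = GD.Ad0.mat x
      have h1 := TW.rep_mul_inv R ((d : GD.decomp (some q)) : GQ)
      rw [ha, Matrix.smul_mul, one_mul] at h1
      rw [ha, Matrix.smul_mul, one_mul, Matrix.smul_mul, ← Matrix.mul_smul, h1, mul_one]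
    simp only [if_neg h3, pow_zero, mul_one]
    by_cases h4 : (q : ℕ) ∈ U
    · rw [if_pos h4]
      exact GD.cardClasses_unip_le hp2 hR h2 (hsm _)
        (hst q h4 h2 h3 _ (GD.placeAt_liesOverPrime q)).1
        (hst q h4 h2 h3 _ (GD.placeAt_liesOverPrime q)).2
    · rw [if_neg h4]
      exact GD.cardClasses_unram_le hp2 GD.Ad0.nsmul_eq_zero (hsm _) (htriv q h2 h4)
  let x : Fin m → GQ → GD.Ad0 R := fun i => (hc i).toAd0
  have hmat : ∀ i σ, GD.Ad0.mat (x i σ) = c i σ := fun i σ => rfl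
  have hxc : ∀ i σ τ, x i (σ * τ) = x i σ + σ • x i τ := fun i σ τ =>
    GD.Ad0.mat_injective ((hc i).map_mul σ τ)
  have hxT : ∀ i, (GD.LT T).Const₁ (x i) := fun i => by
    obtain ⟨F, hF, hF'⟩ := (hc i).finite_level
    refine GD.const₁_of_inertia hN₀T hN₀M (hxc i)
      ⟨F, hF, fun σ hσ => GD.Ad0.mat_injective ((hF' σ
        ((IntermediateField.mem_fixingSubgroup_iff _ _).mp hσ)).trans (map_zero _).symm)⟩
      fun q hq A hA σ hσ => GD.Ad0.mat_injective ?_
    rw [map_zero]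
    have hqS : (q : ℕ) ∉ S := fun h => hq (Finset.mem_union_left _ (hST ((hmemS q).mpr h)))
    exact (hc i).unramified q q.2 (fun e => hqS (e ▸ hpS)) (fun h => hqS (hUS h))
      (fun h => hqS (hsigS h)) (fun h => hq (Finset.mem_union_right _ ((hQn' q).mp h))) A hA σ hσ
  let sc : k → GD.Ad0 R → GD.Ad0 R := fun a y =>
    (⟨a • GD.Ad0.mat y, GD.mem_sl2.mpr (by
      rw [Matrix.trace_smul, GD.Ad0.trace_mat, smul_zero])⟩ : GD.sl2 k)
  have hsc : ∀ a y, GD.Ad0.mat (sc a y) = a • GD.Ad0.mat y := fun a y => rfl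
  let Y : (Fin m → k) → GQ → GD.Ad0 R := fun a σ => ∑ i, sc (a i) (x i σ)
  have hY : ∀ a σ, GD.Ad0.mat (Y a σ) = ∑ i, a i • c i σ := fun a σ => by
    show GD.Ad0.mat (∑ i, sc (a i) (x i σ)) = _
    rw [map_sum]
    rfl
  have hYc : ∀ a σ τ, Y a (σ * τ) = Y a σ + σ • Y a τ := fun a σ τ =>
    GD.Ad0.mat_injective (by
      rw [map_add, GD.Ad0.mat_smul, hY, hY, hY, Finset.mul_sum, Finset.sum_mul,
        ← Finset.sum_add_distrib]
      refine Finset.sum_congr rfl fun i _ => ?_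
      rw [(hc i).map_mul, smul_add, Matrix.mul_smul, Matrix.smul_mul])
  have hYT : ∀ a, (GD.LT T).Const₁ (Y a) := fun a => by
    obtain ⟨N, hN, hN'⟩ := GD.exists_level_forall (T := T)
      (P := fun N i => ∀ g : (GD.LT T).G, ∀ s ∈ N, x i (g * s : (GD.LT T).G) = x i g)
      (fun _ _ _ hle h g s hs => h g s (hle hs)) (fun i => hxT i)
    exact ⟨N, hN, fun g s hs => Finset.sum_congr rfl fun i _ => congrArg (sc (a i)) (hN' i g s hs)⟩
  let Z : (Fin m → k) → (GD.LT T).Z1 (GD.Ad0 R) := fun a => ⟨Y a, hYT a, hYc a⟩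
  have hZ : ∀ a, Z a ∈ ⨅ v ∈ GD.placesOf T, (L v).comap (GD.resCocycle T (GD.Ad0 R) v) := by
    intro a
    refine AddSubgroup.mem_iInf.mpr fun v => AddSubgroup.mem_iInf.mpr fun hv => ?_
    rcases v with _ | q
    · exact AddSubgroup.mem_top _
    have hq : q ∈ T := GD.mem_placesOf_some.mp hv
    show GD.resCocycle T (GD.Ad0 R) (some q) (Z a) ∈ selCond p R U sig Q Lp (some q)
    simp only [selCond]
    split_ifs with h1 h2 h3 h4
    · exact AddSubgroup.mem_top _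
    · rw [hLeq q h2]
      exact hmem q h2 a _ fun d => hY a (d : GQ)
    · refine ⟨0, funext fun (d : GD.decomp (some q)) => GD.Ad0.mat_injective ?_⟩
      show GD.Ad0.mat (_ • (0 : GD.Ad0 R) - 0) = GD.Ad0.mat (Y a ((d : GD.decomp (some q)) : GQ))
      rw [smul_zero, sub_zero, map_zero, hY]
      refine (Finset.sum_eq_zero fun i _ => ?_).symm
      rw [(hc i).trivial_sig q h3 _ (GD.placeAt_liesOverPrime q) _ (d : GD.decomp (some q)).2,
        smul_zero]
    · intro d hd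
      show (GD.Ad0.mat (Y a d) * R d).trace = 0
      rw [hY, Finset.sum_mul, Matrix.trace_sum]
      refine Finset.sum_eq_zero fun i _ => ?_
      rw [Matrix.smul_mul, Matrix.trace_smul,
        (hc i).unipotent q h4 _ (GD.placeAt_liesOverPrime q) _ hd, smul_zero]
    · intro d hd
      refine GD.Ad0.mat_injective ?_
      show GD.Ad0.mat (Y a d) = GD.Ad0.mat 0
      rw [hY, map_zero]
      refine Finset.sum_eq_zero fun i _ => ?_
      rw [(hc i).unramified q q.2 h2 h4 h3 (fun h => h1 ((hQn' q).mp h)) _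
        (GD.placeAt_liesOverPrime q) _ hd, smul_zero]
  let Φ : (Fin m → k) → GD.selmerClasses T (GD.Ad0 R) L := fun a =>
    ⟨_, AddSubgroup.mem_map_of_mem _ (hZ a)⟩
  have hΦ : Function.Injective Φ := by
    intro a b e
    obtain ⟨y, hy⟩ := QuotientAddGroup.eq.mp (congrArg Subtype.val e)
    refine sub_eq_zero.mp (hind (a - b) ⟨-GD.Ad0.mat y, by
      rw [Matrix.trace_neg, GD.Ad0.trace_mat, neg_zero], fun σ => ?_⟩)
    have h1 : GD.Ad0.mat (σ • y - y) = GD.Ad0.mat (-Y a σ + Y b σ) :=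
      congrArg GD.Ad0.mat (congrFun hy σ)
    rw [map_sub, GD.Ad0.mat_smul, map_add, map_neg, hY, hY] at h1
    simp only [Pi.sub_apply, sub_smul, Finset.sum_sub_distrib]
    rw [← sub_eq_zero] at h1
    rw [← sub_eq_zero, mul_neg, neg_mul, ← h1]
    abel
  haveI := hfin
  have hm : K ^ m ≤ Nat.card (GD.selmerClasses T (GD.Ad0 R) L) := by
    have := Nat.card_le_card_of_injective Φ hΦ
    rwa [Nat.card_fun, Nat.card_fin] at this
  have hsum1 : ∑ q ∈ T₀, (if (q : ℕ) ∈ sig then 3 else 0) = 3 * sig.card := by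
    have hf : T₀.filter (fun q : Nat.Primes => (q : ℕ) ∈ sig) = sig.subtype Nat.Prime := by
      ext q
      rw [Finset.mem_filter]
      exact ⟨fun h => Finset.mem_subtype.mpr h.2,
        fun h => ⟨hST ((hmemS q).mpr (hsigS (Finset.mem_subtype.mp h))), Finset.mem_subtype.mp h⟩⟩
    rw [← Finset.sum_filter, hf, Finset.sum_const, smul_eq_mul, mul_comm]
    exact congrArg (3 * ·) ((Finset.card_subtype _ _).trans
      (congrArg Finset.card (Finset.filter_true_of_mem fun l hl => hS l (hsigS hl))))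
  have hsum2 : ∑ q ∈ T₀, (if (q : ℕ) = p then 1 else 0) = 1 := by
    refine (Finset.sum_eq_single_of_mem (⟨p, Fact.out⟩ : Nat.Primes) (hST hpS₀)
      fun q _ hq => if_neg fun e => hq (Subtype.ext e)).trans (if_pos rfl)
  rw [hsum1, hsum2] at hle
  have := (Nat.mul_le_mul hm le_rfl).trans hle
  rw [← pow_add] at this
  have := (Nat.pow_le_pow_iff_right (LL.two_le_card (k := k))).mp this
  omega

end

end Fermat.Agent.R59.Scalar
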