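import Fermat.Agent.R59.Levels.Assemble
import Fermat.Agent.R59.Levels.Rank
import Fermat.Agent.R59.Levels.Transfer
import Fermat.Agent.R59.Scalar.Defs

/-!
S59, unit F2: the representation at a level with scalar and Taylor-Wiles primes, and the vanishing
at the level with `q` removed.
-/

set_option autoImplicit false
set_option linter.unusedSectionVars false
set_option linter.style.haveILetI false
set_option synthInstance.maxHeartbeats 400000

noncomputable section

namespace Fermat.Agent.R59.Scalar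

open IsLocalRing CongruenceSubgroup CuspForm
open Fermat.Agent.Galois (GQ)
open Fermat.Agent.GalRep (cyc)
open Fermat.Agent.Auto hiding finrank_latLoc_prod_le

variable {p : ℕ} [Fact p.Prime] {O : Type} [CommRing O] [IsDomain O] [IsDiscreteValuationRing O]
  [IsAdicComplete (maximalIdeal O) O] [Finite (ResidueField O)]
  [Algebra ℤ_[p] O] [Module.Finite ℤ_[p] O] [CharZero O]
  {ρbar : ResidualGaloisRep (ResidueField O)} {N : ℕ} [NeZero N]
  {S sig aux : Finset ℕ} {q : ℕ} {a : ℕ → O}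

/-- The conditions on the representation over the localised Hecke algebra of level `N R`, the
primes of `R` being scalar or Taylor-Wiles primes. -/
theorem out_local (H : Setting p O ρbar N S sig aux q a) {Q : Finset ℕ} (hQS : ∀ l ∈ Q, l ∉ S)
    {K : ℕ} [NeZero K] {R : ℕ} (hK : K = N * R)
    (hRQ : ∀ l : ℕ, l.Prime → l ∣ R → l ∈ sig ∨ l ∈ Q)
    {θ : heckeAlgebra K 2 (↑(Levels.levelPrimes p N ∪ Q) : Set ℕ) →+* ResidueField O}
    {T : Type} [CommRing T] [IsLocalRing T] [IsNoetherianRing T]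
    [IsAdicComplete (maximalIdeal T) T] [Algebra O T] [IsLocalHom (algebraMap O T)]
    [Module.Finite O T] [Module.Free O T]
    (HR : HeckeGaloisRepDatum K (↑(Levels.levelPrimes p N ∪ Q) : Set ℕ) O θ T)
    (hres : HR.ρ.residual.IsEquiv (ρbar.baseChangeAlong (ResidueField.map (algebraMap O T)))) :
    Algebra.adjoin O {t : T | ∃ l : ℕ, l.Prime ∧ l ∉ S ∧ l ∉ Q ∧
      ∃ A : ValuationSubring (AlgebraicClosure ℚ), A.LiesOverPrime l ∧
        ∃ σ : GQ, A.IsFrobeniusAt σ l ∧ t = HR.ρ.trace σ} = ⊤ ∧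
    (∀ σ : GQ, LinearMap.det (HR.ρ.ρ σ) =
      algebraMap O T (algebraMap ℤ_[p] O (cyc p σ : ℤ_[p]))) ∧
    (∀ l : ℕ, l.Prime → l ≠ p → ¬ l ∣ N → l ∉ Q → HR.ρ.IsUnramifiedAt l) ∧
    (¬ p ∣ N → HR.ρ.IsFlatAt p) ∧ (p ∣ N → HR.ρ.IsOrdinaryAt p) ∧
    (∀ l : ℕ, l.Prime → l ≠ p → l ∣ N → l ∉ sig → HR.ρ.IsUnipotentOnInertiaAt l) := by
  have hp : (p : O) ∈ maximalIdeal O := natCast_p_mem_maximalIdeal
  have hL := H.levels
  have hpS' : p ∈ Levels.levelPrimes p N ∪ Q :=
    Finset.mem_union_left _ (Finset.mem_insert_self _ _)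
  have hsigN : ∀ l ∈ sig, l ∣ N := fun l hl => (H.sig_spec l hl).2.1
  have hKS : ∀ l : ℕ, l.Prime → l ∣ K → l ∈ Levels.levelPrimes p N ∪ Q := fun l hl h => by
    rw [hK] at h
    rcases hl.dvd_mul.mp h with h | h
    · exact Finset.mem_union_left _ (hL.mem_levelPrimes l hl h)
    · exact (hRQ l hl h).elim
        (fun h => Finset.mem_union_left _ (hL.mem_levelPrimes l hl (hsigN l h)))
        (Finset.mem_union_right _)
  have h2 : ∀ l : ℕ, l.Prime → l ∈ S → l ∉ sig → ¬ l ^ 2 ∣ K := fun l hl hlS hls h' => by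
    have hR : ¬ l ∣ R := fun h => (hRQ l hl h).elim hls fun h => hQS l h hlS
    exact hl.not_isUnit (H.squarefree l (by
      rw [← pow_two]
      exact (Nat.Coprime.pow_left 2 (hl.coprime_iff_not_dvd.mpr hR)).dvd_of_dvd_mul_right
        (hK ▸ h')))
  have hps : p ∉ sig := fun h => (H.sig_spec p h).2.2.1 rfl
  refine ⟨?_, fun σ => det_eq_cycO hp HR.ρ _ (fun l hl hlS A hA τ hτ =>
      (trace_det_frobenius HR hl (fun h => hlS (hKS l hl h)) hlS hA hτ).2) σ,
    fun l hl hlp hlN hlQ => Fermat.Agent.S31.result (Fact.out : p.Prime) hp hpS' hKS HR l hl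
      fun h => (Finset.mem_union.mp h).elim (fun h => (Finset.mem_insert.mp h).elim hlp
        fun h => hlN (Nat.mem_primeFactors.mp h).2.1) hlQ,
    fun hpN => Fermat.Agent.S32.result (Fact.out : p.Prime) hL.ne_two hp (fun h => ?_) hpS' hKS HR,
    fun hpN => Fermat.Agent.S33.result (Fact.out : p.Prime) hL.ne_two hp
      ⟨hK ▸ hpN.trans (dvd_mul_right N R), h2 p Fact.out hL.p_mem hps⟩ hKS HR
      (Levels.isOrdinaryAt_ofResidual _ hres (H.ordinary hpN)),
    fun l hl hlp hlN hls => Fermat.Agent.S34.result (Fact.out : p.Prime) hp hpS' hKS HR l hl hlp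
      (hK ▸ hlN.trans (dvd_mul_right N R)) (h2 l hl (hL.level_mem l hl hlN) hls)⟩
  · have h1 : Algebra.adjoin O (Set.range HR.ρ.trace) = ⊤ :=
      eq_top_iff.mpr ((adjoin_trace_frobenius_eq_top HR hKS).ge.trans (Algebra.adjoin_mono
        (by rintro _ ⟨l, -, -, A, -, σ, -, rfl⟩; exact ⟨σ, rfl⟩)))
    refine eq_top_iff.mpr ((Levels.adjoin_frobenius_eq_top HR.ρ h1 (S ∪ Q)).ge.trans
      (Algebra.adjoin_mono ?_))
    rintro t ⟨l, hl, hlS, hAσ⟩
    exact ⟨l, hl, fun h => hlS (Finset.mem_union_left _ h),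
      fun h => hlS (Finset.mem_union_right _ h), hAσ⟩
  · rw [hK] at h
    exact ((Fact.out : p.Prime).dvd_mul.mp h).elim hpN fun h =>
      (hRQ p Fact.out h).elim hps fun h => hQS p h hL.p_mem

/-- Nothing lives at the level with `q` removed. -/
theorem lower_eq_bot (H : Setting p O ρbar N S sig aux q a) {Q : Finset ℕ}
    (hQ : ∀ v ∈ Q, v.Prime ∧ v ∉ S ∧ v ≡ 1 [MOD p] ∧ residue O (a v) ^ 2 ≠ 4)
    [NeZero ((N * ∏ v ∈ Q, v) / q)] :
    latLoc ((N * ∏ v ∈ Q, v) / q) (1 : (ZMod ((N * ∏ v ∈ Q, v) / q))ˣ →* Unit) O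
      (Levels.levelPrimes p N ∪ Q) a = ⊥ := by
  have hL := H.levels
  have hqN : q ∣ N := (H.sig_spec q H.q_mem).2.1
  have hq0 : 0 < q := (H.sig_spec q H.q_mem).1.pos
  haveI : NeZero (N / q) :=
    ⟨(Nat.div_pos (Nat.le_of_dvd (NeZero.pos N) hqN) hq0).ne'⟩
  haveI : NeZero (N / q * ∏ v ∈ Q, v) :=
    ⟨mul_ne_zero (NeZero.ne _) (Finset.prod_ne_zero_iff.mpr fun v hv => (hQ v hv).1.ne_zero)⟩
  have hlev : ∀ l : ℕ, l.Prime → l ∣ N / q → l ∈ S := fun l hl h =>
    hL.level_mem l hl (h.trans (Nat.div_dvd_of_dvd hqN))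
  have hfrob : ∀ l : ℕ, l.Prime → l ∉ S → ∀ A : ValuationSubring (AlgebraicClosure ℚ),
      A.LiesOverPrime l → ∀ σ : GQ, A.IsFrobeniusAt σ l →
        LinearMap.charpoly (ρbar.ρ σ) = Polynomial.X ^ 2 -
          Polynomial.C (residue O (a l)) * Polynomial.X + Polynomial.C ((l : ResidueField O)) :=
    fun l hl h => hL.charpoly_frob l hl (fun e => h (e ▸ hL.p_mem))
      fun e => h (hL.level_mem l hl e)
  have h0 : latLoc (N / q) (1 : (ZMod (N / q))ˣ →* Unit) O (S ∪ Q) a = ⊥ :=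
    latLoc_eq_bot_of_no_theta hL.ne_two (natCast_p_mem_maximalIdeal (p := p)) ρbar hL.absIrr
      (Finset.mem_union_left _ hL.p_mem) (fun l hl h => Finset.mem_union_left _ (hlev l hl h))
      (fun l hl h => hfrob l hl fun h' => h (Finset.mem_union_left _ h'))
      (H.not_lower (S ∪ Q) Finset.subset_union_left)
  have h1 := Levels.finrank_latLoc_prod_le hL.ne_two (natCast_p_mem_maximalIdeal (p := p)) ρbar
    hL.absIrr (S := S) (S' := S ∪ Q) Finset.subset_union_left hfrob (N := N / q) hL.p_mem hlev Q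
    Finset.subset_union_right hQ
  rw [h0, finrank_bot, mul_zero, Nat.le_zero] at h1
  have h2 := Submodule.finrank_eq_zero.mp h1
  have key : ∀ K : ℕ, K = N / q * ∏ v ∈ Q, v → ∀ [NeZero K],
      latLoc K (1 : (ZMod K)ˣ →* Unit) O (S ∪ Q) a = ⊥ := fun K h _ => by subst h; exact h2
  refine le_bot_iff.mp ((latLoc_mono ?_).trans
    (key _ (Nat.mul_div_right_comm hqN _).symm.symm).le)
  exact Finset.union_subset_union hL.levelPrimes_subset (Finset.Subset.refl Q)

end Fermat.Agent.R59.Scalar
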