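import Fermat.Agent.R59.Levels.Norm
import Fermat.Agent.R59.Levels.Rank
import Fermat.Agent.Auto.Qnew
import Fermat.Agent.Auto.Descent.Invariant

/-!
S59, unit F2: the relation at a prime where nothing lives at the lower level, for every odd `p`
with a neat prime in the level when `p = 3`.
-/

set_option autoImplicit false
set_option linter.unusedSectionVars false
set_option linter.style.haveILetI false
set_option synthInstance.maxHeartbeats 400000

noncomputable section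

namespace Fermat.Agent.R59.Scalar

open CongruenceSubgroup IsLocalRing
open Fermat.Agent.Galois (GQ)
open Fermat.Agent.Auto hiding qnew_relation exists_latLoc_basis exists_latRes_eq_norm
open scoped MatrixGroups

variable {p : ℕ} [Fact p.Prime] {O : Type} [CommRing O] [IsDomain O] [IsDiscreteValuationRing O]
  [IsAdicComplete (maximalIdeal O) O] [Finite (ResidueField O)]
  [Algebra ℤ_[p] O] [Module.Finite ℤ_[p] O] [CharZero O]
  {M : ℕ} [NeZero M] {S : Finset ℕ} {a : ℕ → O}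

section Relation

variable {Δ : Type} [CommGroup Δ] [Fintype Δ] {c : (ZMod M)ˣ →* Δ}

/-- If nothing lives at level `Γ₀(M/q)`, the trace of Frobenius at `q` is `± (q+1)`. -/
theorem qnew_relation (hp2 : p ≠ 2)
    (hneat : p = 3 → ∃ r : ℕ, r.Prime ∧ r ∣ M ∧ r % 3 = 2) (hp : (p : O) ∈ maximalIdeal O) (hΔ : IsPGroup p Δ)
    (hc : Function.Surjective c) {D : ℕ} (hD : D ∣ M) (hsq : Squarefree D)
    (hcD : ∀ u : (ZMod M)ˣ, ((u : ZMod M).val : ZMod D) = 1 → c u = 1)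
    (hpS : p ∈ S) (hMS : ∀ l : ℕ, l.Prime → l ∣ M → l ∈ S) (hne : NonEis S a)
    (ρbar : ResidualGaloisRep (ResidueField O)) (habs : ρbar.IsAbsolutelyIrreducible)
    (hfrob : ∀ l : ℕ, l.Prime → l ∉ S → ∀ A : ValuationSubring (AlgebraicClosure ℚ),
      A.LiesOverPrime l → ∀ σ : GQ, A.IsFrobeniusAt σ l →
        LinearMap.charpoly (ρbar.ρ σ) = Polynomial.X ^ 2 -
          Polynomial.C (residue O (a l)) * Polynomial.X + Polynomial.C ((l : ResidueField O)))
    {q : ℕ} (hq : q.Prime) (hqp : q ≠ p) (hqM : q ∣ M) (hq2 : ¬ q ^ 2 ∣ M) (hqD : ¬ q ∣ D) (hq1 : q ≡ 1 [MOD p])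
    [NeZero (M / q)] (hbot : latLoc (M / q) (1 : (ZMod (M / q))ˣ →* Unit) O S a = ⊥)
    (A : ValuationSubring (AlgebraicClosure ℚ)) (hA : A.LiesOverPrime q) (σ : GQ)
    (hσ : A.IsFrobeniusAt σ q) {x : Lat M c O} (hx : x ∈ latLoc M c O S a) :
    relOp q (galTw M c p O σ) x = 0 := by
  obtain ⟨m, rfl⟩ := hqM
  haveI : Fact q.Prime := ⟨hq⟩
  haveI : NeZero q := ⟨hq.ne_zero⟩
  haveI : NeZero m := ⟨(mul_ne_zero_iff.mp (NeZero.ne (q * m))).2⟩
  have hqm : q.Coprime m :=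
    hq.coprime_iff_not_dvd.mpr fun h => hq2 (by rw [sq]; exact mul_dvd_mul_left q h)
  have hDm : D ∣ m := (hq.coprime_iff_not_dvd.mpr hqD).symm.dvd_of_dvd_mul_left hD
  haveI : NeZero D := ⟨hsq.ne_zero⟩
  haveI : NeZero (q * m * D) := ⟨mul_ne_zero (NeZero.ne _) (NeZero.ne D)⟩
  haveI : NeZero (m * D) := ⟨mul_ne_zero (NeZero.ne _) (NeZero.ne D)⟩
  have hπ := ZMod.unitsMap_surjective (dvd_mul_left m q)
  let c' : (ZMod m)ˣ →* Δ := MonoidHom.liftOfSurjective _ hπ ⟨c, fun u hu => by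
    rw [MonoidHom.mem_ker] at hu ⊢
    refine hcD u ?_
    rw [ZMod.natCast_val, ← ZMod.castHom_apply (h := hD) (u : ZMod (q * m)),
      ← ZMod.castHom_comp hDm (dvd_mul_left m q), RingHom.comp_apply]
    rw [show ZMod.castHom (dvd_mul_left m q) (ZMod m) (u : ZMod (q * m)) = 1 from
      congrArg Units.val hu, map_one]⟩
  have hc' : ∀ u, c' (ZMod.unitsMap (dvd_mul_left m q) u) = c u :=
    MonoidHom.liftOfRightInverse_comp_apply _ _ _ _
  have hcs : Function.Surjective c' := fun d => by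
    obtain ⟨u, rfl⟩ := hc d
    exact ⟨_, hc' u⟩
  have hmS : ∀ l : ℕ, l.Prime → l ∣ m → l ∈ S := fun l hl h => hMS l hl (h.trans (dvd_mul_left m q))
  have hbotm : latLoc m (1 : (ZMod m)ˣ →* Unit) O S a = ⊥ := by
    have key : ∀ N : ℕ, N = m → ∀ [NeZero N], latLoc N (1 : (ZMod N)ˣ →* Unit) O S a = ⊥ →
        latLoc m (1 : (ZMod m)ˣ →* Unit) O S a = ⊥ := by
      intro N hN
      subst hN
      exact fun h => h
    exact key _ (Nat.mul_div_cancel_left m hq.pos) hbot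
  have hneat' : p = 3 → ∃ r : ℕ, r.Prime ∧ r ∣ m ∧ r % 3 = 2 := fun h => by
    obtain ⟨r, hr, hrM, hr3⟩ := hneat h
    refine ⟨r, hr, (hr.dvd_mul.mp hrM).resolve_left fun hrq => ?_, hr3⟩
    rw [(Nat.prime_dvd_prime_iff_eq hr hq).mp hrq] at hr3
    have h1 : q % 3 = 1 % 3 := h ▸ hq1
    omega
  have hzero : ∀ y ∈ latLoc m c' O S a, y = 0 := by
    obtain ⟨n, b, -, hn, hb⟩ := Levels.exists_latLoc_basis hp2 hneat' hp hΔ hcs hpS hmS hne
    rw [finrank_latLoc_one, hbotm, finrank_bot] at hn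
    subst hn
    intro y hy
    obtain ⟨f, hf, -⟩ := hb y hy
    rw [hf, Fin.sum_univ_zero]
  exact Levels.relOp_eq_zero_of_qnew hp2 hp hΔ ρbar habs hfrob hqm hc' hDm hsq hcD hpS hMS hqp hA hσ hx
    (Qn.qnew_of_traces hqm hc' x (hzero _ ((Qn.carrier_one hqm hc').traceMap_mem_latLoc hMS hx))
      (hzero _ ((Qn.carrier_bM hqm hc').traceMap_mem_latLoc hMS hx)))

end Relation

variable {Δ Δ' : Type} [CommGroup Δ] [Fintype Δ] [CommGroup Δ'] [Fintype Δ'] [DecidableEq Δ']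
  {c : (ZMod M)ˣ →* Δ}

/-- The relation of `qnew_relation` for norms from a level with nebentypus at `q`. -/
theorem qnew_norm (hp2 : p ≠ 2) (hneat : p = 3 → ∃ r : ℕ, r.Prime ∧ r ∣ M ∧ r % 3 = 2)
    (hp : (p : O) ∈ maximalIdeal O) (hΔ : IsPGroup p Δ)
    (hc : Function.Surjective c) (π : Δ →* Δ') (hπ : Function.Surjective π) {D : ℕ} (hD : D ∣ M)
    (hsq : Squarefree D)
    (hcD : ∀ u : (ZMod M)ˣ, ((u : ZMod M).val : ZMod D) = 1 → π (c u) = 1)
    (hpS : p ∈ S) (hMS : ∀ l : ℕ, l.Prime → l ∣ M → l ∈ S) (hne : NonEis S a)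
    (ρbar : ResidualGaloisRep (ResidueField O)) (habs : ρbar.IsAbsolutelyIrreducible)
    (hfrob : ∀ l : ℕ, l.Prime → l ∉ S → ∀ A : ValuationSubring (AlgebraicClosure ℚ),
      A.LiesOverPrime l → ∀ σ : GQ, A.IsFrobeniusAt σ l →
        LinearMap.charpoly (ρbar.ρ σ) = Polynomial.X ^ 2 -
          Polynomial.C (residue O (a l)) * Polynomial.X + Polynomial.C ((l : ResidueField O)))
    {q : ℕ} (hq : q.Prime) (hqp : q ≠ p) (hqM : q ∣ M) (hq2 : ¬ q ^ 2 ∣ M) (hqD : ¬ q ∣ D)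
    (hq1 : q ≡ 1 [MOD p])
    [NeZero (M / q)] (hbot : latLoc (M / q) (1 : (ZMod (M / q))ˣ →* Unit) O S a = ⊥)
    (A : ValuationSubring (AlgebraicClosure ℚ)) (hA : A.LiesOverPrime q) (σ : GQ)
    (hσ : A.IsFrobeniusAt σ q) {x : Lat M c O} (hx : x ∈ latLoc M c O S a) :
    relOp q (galTw M c p O σ)
      (∑ u ∈ Finset.univ.filter (fun u => π u = 1), latDelta M c O hc u x) = 0 := by
  obtain ⟨y, hy, hN⟩ := Levels.exists_latRes_eq_norm hp2 hp hMS hne hc π hx
  rw [← hN]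
  have hcard : ∃ r, (Nat.card Δ - 1) / 2 = (Nat.card Δ' - 1) / 2 + Nat.card Δ' * r := by
    obtain ⟨k, hk⟩ := hΔ.exists_card_eq
    have hodd : Odd (Nat.card Δ) := by
      rw [hk]
      exact ((Fact.out : p.Prime).odd_of_ne_two hp2).pow
    obtain ⟨m, hm⟩ := Subgroup.card_dvd_of_surjective π hπ
    obtain ⟨h1, ⟨r, hr⟩⟩ := Nat.odd_mul.mp (hm ▸ hodd)
    obtain ⟨s, hs⟩ := h1
    refine ⟨r, ?_⟩
    rw [hm, hs, hr]
    rw [show (2 * s + 1) * (2 * r + 1) - 1 = 2 * (s + (2 * s + 1) * r) by ring_nf; omega]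
    omega
  obtain ⟨r, hr⟩ := hcard
  have hF : ∀ v, galTw M c p O σ (latRes (grp_le_comp π) v) =
      latRes (grp_le_comp π) (galTw M (π.comp c) p O σ v) := fun v => by
    show galLat M c p O σ (latDia M c O _ (latRes (grp_le_comp π) v)) =
      latRes (grp_le_comp π) (galLat M (π.comp c) p O σ (latDia M (π.comp c) O _ v))
    rw [← latRes_latDia, ← latRes_galLat, hr, pow_add, latDia_mul,
      latDia_eq_one (c := π.comp c) (d := _ ^ (Nat.card Δ' * r)), mul_one]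
    rw [map_pow, pow_mul, pow_card_eq_one', one_pow]
  have hrel : ∀ v, relOp q (galTw M c p O σ) (latRes (grp_le_comp π) v) =
      latRes (grp_le_comp π) (relOp q (galTw M (π.comp c) p O σ) v) := fun v => by
    simp only [relOp, sq, LinearMap.sub_apply, Module.End.mul_apply, LinearMap.add_apply,
      Module.End.natCast_apply, map_sub, map_add, map_nsmul, hF]
  rw [hrel, qnew_relation hp2 hneat hp (hΔ.of_surjective π hπ) (hπ.comp hc) hD hsq hcD hpS hMS hne ρbar habs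
    hfrob hq hqp
    hqM hq2 hqD hq1 hbot A hA σ hσ hy, map_zero]

end Fermat.Agent.R59.Scalar
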