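/-
S59, unit F2: the automorphic input of the patching at the last level exists.
-/
import Fermat.Agent.R59.Scalar.Defs
import Fermat.Agent.R59.Scalar.OutLocal
import Fermat.Agent.R59.Scalar.OutQnew

set_option autoImplicit false
set_option linter.unusedSectionVars false
set_option linter.style.haveILetI false
set_option synthInstance.maxHeartbeats 400000

noncomputable section

namespace Fermat.Agent.R59.Scalar

open IsLocalRing CongruenceSubgroup CuspForm
open Fermat.Agent.Galois (GQ)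
open Fermat.Agent.GalRep.Level (cycM)
open Fermat.Agent.Auto hiding trace_inertia_levelRep exists_latLoc_basis qnew_norm finrank_latLoc_prod_le

variable {p : ℕ} [Fact p.Prime] {O : Type} [CommRing O] [IsDomain O] [IsDiscreteValuationRing O]
  [IsAdicComplete (maximalIdeal O) O] [Finite (ResidueField O)]
  [Algebra ℤ_[p] O] [Module.Finite ℤ_[p] O] [CharZero O]

set_option maxHeartbeats 1600000 in
/-- The data at one level. -/
theorem exists_out_at {ρbar : ResidualGaloisRep (ResidueField O)} {N : ℕ} [NeZero N]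
    {S sig aux : Finset ℕ} {q : ℕ} {a : ℕ → O} (H : Setting p O ρbar N S sig aux q a) {n : ℕ}
    {Q : Finset ℕ}
    (hQn : ∀ v ∈ Q, v.Prime ∧ v ∉ S ∧ v ≡ 1 [MOD p ^ (n + 1)] ∧ residue O (a v) ^ 2 ≠ 4) :
    ∃ X : Out p O ρbar N S sig Q q n, X.rank ≤ 2 ^ Q.card *
      Module.finrank O (latLoc N (1 : (ZMod N)ˣ →* Unit) O (Levels.levelPrimes p N) a) := by
  classical
  have hL := H.levels
  have hp2 := hL.ne_two
  have hp : (p : O) ∈ maximalIdeal O := natCast_p_mem_maximalIdeal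
  have hQ := tw_prime (p := p) hQn
  have hsigp : ∀ l ∈ sig, l.Prime := fun l hl => (H.sig_spec l hl).1
  have hQp : ∀ v ∈ Q, v.Prime := fun v hv => (hQ v hv).1
  have hQS : ∀ v ∈ Q, v ∉ S := fun v hv => (hQ v hv).2.1
  have hQS₁ : ∀ v ∈ Q, v ∉ Levels.levelPrimes p N := fun v hv h =>
    hQS v hv (hL.levelPrimes_subset h)
  have hQN : ∀ v ∈ Q, ¬ v ∣ N := fun v hv h => hQS v hv (hL.level_mem v (hQp v hv) h)
  have hdisj : Disjoint sig Q := Finset.disjoint_left.mpr fun l hl hlQ =>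
    hQN l hlQ (H.sig_spec l hl).2.1
  set M := N * ∏ v ∈ Q, v with hMdef
  haveI : NeZero M :=
    ⟨mul_ne_zero (NeZero.ne N) (Finset.prod_ne_zero_iff.mpr fun v hv => (hQp v hv).ne_zero)⟩
  have hsigM : ∀ l ∈ sig, l.Prime ∧ l ∣ M ∧ p ^ (fun _ => 1 : ℕ → ℕ) l ∣ l - 1 := fun l hl =>
    ⟨hsigp l hl, (H.sig_spec l hl).2.1.trans (dvd_mul_right N _), by
      rw [pow_one]
      exact (Nat.modEq_iff_dvd' (hsigp l hl).one_le).mp (H.sig_spec l hl).2.2.2.1.symm⟩
  have hQM : ∀ l ∈ Q, l.Prime ∧ l ∣ M ∧ p ^ (fun _ => n + 1 : ℕ → ℕ) l ∣ l - 1 := fun l hl =>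
    ⟨hQp l hl, (Finset.dvd_prod_of_mem (fun v => v) hl).trans (dvd_mul_left _ N),
      (Nat.modEq_iff_dvd' (hQp l hl).one_le).mp (hQn l hl).2.2.1.symm⟩
  obtain ⟨c, f, g, hc, hfs, hgs, hf, hg⟩ := exists_char_pair (p := p) (M := M) sig Q hdisj
    (fun _ => 1) (fun _ => n + 1) hsigM hQM
  set Δ := CharGrp p sig (fun _ => 1) × CharGrp p Q (fun _ => n + 1) with hΔdef
  have hΔ : IsPGroup p Δ := by
    obtain ⟨e₁, he₁⟩ := IsPGroup.iff_card.mp (isPGroup_charGrp (p := p) sig fun _ => 1)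
    obtain ⟨e₂, he₂⟩ := IsPGroup.iff_card.mp (isPGroup_charGrp (p := p) Q fun _ => n + 1)
    exact IsPGroup.of_card (n := e₁ + e₂) (by rw [Nat.card_prod, he₁, he₂, pow_add])
  have hodd : Odd (Nat.card Δ) := by
    obtain ⟨e, he⟩ := IsPGroup.iff_card.mp hΔ
    rw [he]
    exact ((Fact.out : p.Prime).odd_of_ne_two hp2).pow
  set hh := (Nat.card Δ - 1) / 2 with hhdef
  set D := (∏ l ∈ sig, l) * ∏ v ∈ Q, v with hDdef
  haveI : NeZero (M * D) := ⟨mul_ne_zero (NeZero.ne M) (mul_ne_zero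
    (Finset.prod_ne_zero_iff.mpr fun l hl => (hsigp l hl).ne_zero)
    (Finset.prod_ne_zero_iff.mpr fun v hv => (hQp v hv).ne_zero))⟩
  have hD : D ∣ M := mul_dvd_mul_right (Finset.prod_primes_dvd N (fun l hl => (hsigp l hl).prime)
    fun l hl => (H.sig_spec l hl).2.1) _
  have hsqM : Squarefree M := Nat.squarefree_mul_iff.mpr
    ⟨Nat.Coprime.prod_right fun v hv =>
      ((hQp v hv).coprime_iff_not_dvd.mpr (hQN v hv)).symm, H.squarefree,
      squarefree_prod_primes Q hQp⟩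
  have hsq : Squarefree D := hsqM.squarefree_of_dvd hD
  have hr2 : ∀ l : ℕ, l.Prime → ¬ l ^ 2 ∣ M := fun l hl h =>
    hl.not_isUnit (hsqM l (by rwa [← pow_two]))
  have hcast : ∀ (u : (ZMod M)ˣ) (d e : ℕ), d ∣ e → (((u : ZMod M).val : ZMod e) = 1) →
      ((u : ZMod M).val : ZMod d) = 1 := fun u d e hde h => by
    have := congrArg (ZMod.castHom hde (ZMod d)) h
    rwa [map_natCast, map_one] at this
  have hcQ : ∀ u : (ZMod M)ˣ, ((u : ZMod M).val : ZMod (∏ v ∈ Q, v)) = 1 → (c u).2 = 1 :=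
    fun u hu => char_eq_one_of_prod (c := (MonoidHom.snd _ _).comp c) hQM hg u hu
  have hcD : ∀ u : (ZMod M)ˣ, ((u : ZMod M).val : ZMod D) = 1 → c u = 1 := fun u hu =>
    Prod.ext (char_eq_one_of_prod (c := (MonoidHom.fst _ _).comp c) hsigM hf u
      (hcast u _ _ (dvd_mul_right _ _) hu)) (hcQ u (hcast u _ _ (dvd_mul_left _ _) hu))
  set S' := Levels.levelPrimes p N ∪ Q with hS'
  have hpS' : p ∈ S' := Finset.mem_union_left _ (Finset.mem_insert_self _ _)
  have hQD : ∀ l : ℕ, l.Prime → l ∣ ∏ v ∈ Q, v → l ∈ Q := fun l hl h => by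
    obtain ⟨v, hv, hlv⟩ := (Prime.dvd_finsetProd_iff hl.prime _).mp h
    exact ((Nat.prime_dvd_prime_iff_eq hl (hQp v hv)).mp hlv) ▸ hv
  have hMS : ∀ l : ℕ, l.Prime → l ∣ M → l ∈ S' := fun l hl h =>
    Finset.mem_union.mpr ((hl.dvd_mul.mp h).imp (hL.mem_levelPrimes l hl) (hQD l hl))
  have hfrob' := fun l (hl : Nat.Prime l) (h : l ∉ S') =>
    hL.frob_of_notMem l hl fun h' => h (Finset.mem_union_left Q h')
  have hne : NonEis S' a := nonEis_of_absIrr hp hL.absIrr hfrob'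
  have hneat : p = 3 → ∃ r : ℕ, r.Prime ∧ r ∣ M ∧ r % 3 = 2 := fun h => by
    obtain ⟨r, hr, hrN, hr3⟩ := hL.neat h
    exact ⟨r, hr, hrN.trans (dvd_mul_right N _), hr3⟩
  obtain ⟨e, -⟩ := Levels.exists_iterate hp2 hp ρbar hL.absIrr hL.frob_of_notMem
    (Finset.mem_insert_self _ _) hL.mem_levelPrimes Q hQp hQS₁
    (fun v hv => (hQ v hv).2.2.1) (fun v hv => (hQ v hv).2.2.2) M rfl (dvd_mul_right N _)
  obtain ⟨n₀, b, hb, hn₀, hbasis⟩ :=
    Levels.exists_latLoc_basis (M := M) (c := c) (S := S') (a := a) hp2 hneat hp hΔ hc hpS' hMS hne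
  set W := latLoc N (1 : (ZMod N)ˣ →* Unit) O (Levels.levelPrimes p N) a with hW
  haveI hWfin : Module.Finite O W := inferInstance
  haveI hWfree : Module.Free O W :=
    @Module.free_of_finite_type_torsion_free' O _ W _ _ _ _ _ _
  have hWne : W ≠ ⊥ := hW ▸ hL.latLoc_levelPrimes ▸ hL.ne_bot
  haveI : Nontrivial W := Submodule.nontrivial_iff_ne_bot.mpr hWne
  have hrank : n₀ = 2 ^ Q.card * Module.finrank O W := by
    rw [hn₀, finrank_latLoc_one, e.finrank_eq, Module.finrank_pi_fintype, Finset.sum_const,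
      Finset.card_univ, Fintype.card_fin, smul_eq_mul]
  have hpos : 0 < n₀ := hrank ▸ Nat.mul_pos (Nat.two_pow_pos _)
    (Module.finrank_pos (R := O) (M := ↥W))
  have hbot : latLoc M c O S' a ≠ ⊥ := fun h => by
    obtain ⟨f₀, -, huni⟩ := hbasis 0 (zero_mem _)
    have hb0 : ∀ i, b i = 0 := fun i => by
      have := hb i
      rwa [h, Submodule.mem_bot] at this
    have h1 := huni 0 (by simp)
    have h2 := huni 1 (by simp [hb0])
    have := congrFun (congrFun (h1.trans h2.symm) ⟨0, hpos⟩) 1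
    exact zero_ne_one this
  obtain ⟨θ, HR, Φ, hres, hdiaΦ, hgalΦ, hquad⟩ := exists_levelRep (p := p) ρbar hp2 hp hΔ hD hsq
    hcD hpS' hMS hL.absIrr hfrob' hbot
  have hred : ∀ z ∈ Algebra.adjoin O (Set.range (twT M c O) ∪ Set.range (latDia M c O)),
      z * z = 0 → z = 0 := fun z hz h => twAlg_sq_eq_zero hD hsq hcD hodd hz h
  obtain ⟨hadj, hdet, hunr, hflat, hord, huni⟩ := out_local H hQS (Q := Q)
    (R := (∏ v ∈ Q, v) * D) (mul_assoc N _ _)
    (fun l hl h => (hl.dvd_mul.mp h).elim (fun h => Or.inr (hQD l hl h)) fun h =>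
      (hl.dvd_mul.mp h).elim (fun h => Or.inl (by
        obtain ⟨v, hv, hlv⟩ := (Prime.dvd_finsetProd_iff hl.prime _).mp h
        exact ((Nat.prime_dvd_prime_iff_eq hl (hsigp v hv)).mp hlv) ▸ hv))
        fun h => Or.inr (hQD l hl h))
    HR hres
  obtain ⟨ζ, hζ⟩ := H.exists_zeta
  obtain ⟨z, hzinj, hzp, hz1⟩ := exists_zetaHom hp hζ
  set χ := prodChar (p := p) sig z with hχ
  set V := chiLoc O hc S' a χ with hV
  haveI : Module.IsTorsionFree O V :=
    Function.Injective.moduleIsTorsionFree _ V.injective_subtype fun r x => map_smul V.subtype r x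
  haveI hVfin : Module.Finite O V := inferInstance
  haveI hVfree : Module.Free O V := @Module.free_of_finite_type_torsion_free' O _ V V.addCommGroup
    V.module _ _ _ _
  obtain ⟨b', hb'⟩ := exists_chiLoc_basis hc χ hb hbasis
  let delta : (r : Q) → (ZMod (r : ℕ))ˣ →* CharGrp p Q (fun _ => n + 1) := fun r =>
    (powMonoidHom hh).comp
      ((MonoidHom.mulSingle
        (fun l : Q => Multiplicative (ZMod (p ^ (fun _ => n + 1 : ℕ → ℕ) l))) r).comp (g r))
  let xi : (l : sig) → (ZMod (l : ℕ))ˣ →* Oˣ := fun l =>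
    χ.comp ((powMonoidHom hh).comp
      ((MonoidHom.mulSingle
        (fun l' : sig => Multiplicative (ZMod (p ^ (fun _ => 1 : ℕ → ℕ) l'))) l).comp (f l)))
  have hCp : ∀ x : CharGrp p sig (fun _ => 1), x ^ p = 1 := fun x => funext fun l => by
    rw [Pi.pow_apply, ← ofAdd_toAdd (x l), ← ofAdd_nsmul, nsmul_eq_mul,
      (ZMod.natCast_eq_zero_iff p (p ^ 1)).mpr (dvd_of_eq (pow_one p)), zero_mul]
    rfl
  have hact : ∀ (r : ℕ) (A : ValuationSubring (AlgebraicClosure ℚ)), r.Prime → r ∣ M → r ≠ p →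
      r ≡ 1 [MOD p] → A.LiesOverPrime r → (∀ τ ∈ A.inertiaSubgroupIn ℚ, ρbar.ρ τ = 1) →
      ∀ σ ∈ A.inertiaSubgroupIn ℚ, ∀ (x : CharGrp p sig (fun _ => 1)) y,
        c (cycM M σ) = (x, y) →
        chiAlgHom hc χ Φ hdiaΦ (HR.ρ.trace σ) =
          (χ (x ^ hh) : O) • chiDia hc χ (y ^ hh) +
            (((χ (x ^ hh))⁻¹ : Oˣ) : O) • chiDia hc χ (y ^ hh)⁻¹ :=
    fun r A hr hrM hrp hr1 hA hbar σ hσ x y hxy =>
      chi_inertia hc χ Φ hdiaΦ (HR.ρ.trace σ) (cycM M σ ^ hh) (x ^ hh) (y ^ hh)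
        (by rw [map_pow, hxy, Prod.pow_mk])
        (Levels.trace_inertia_levelRep (ρbar := ρbar) hp2 hΔ hc hpS' hMS hne hred HR.ρ hres Φ
          hgalΦ hquad hr hrp hrM (hr2 r hr) hr1 hA hbar hσ)
  refine ⟨{
    T := heckeLocal (M * D) (↑S' : Set ℕ) O θ
    residue_surjective := HR.residue_surjective
    ρ := HR.ρ
    residual := hres
    adjoin_trace := hadj
    det_eq := hdet
    unramified := hunr
    flat := hflat
    ordinary := hord
    unipotent := huni
    V := V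
    act := chiAlgHom hc χ Φ hdiaΦ
    dia := chiDia hc χ
    dia_commute := fun x t => chiDia_commute hc χ Φ hdiaΦ x t
    rank := n₀
    rank_pos := hpos
    basis := ⟨b', fun v => by convert hb' v⟩
    delta := delta
    delta_off := fun r r' u h => ?_
    delta_surjective := fun r y => ?_
    inertia_tw := fun r _ A hA σ hσ => ?_
    xi := xi
    xi_pow := fun l u => ?_
    xi_ne := fun l h => ?_
    inertia_sig := fun l _ A hA σ hσ => ?_
    qnew := fun A hA σ hσ v => ?_ }, hrank.le⟩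
  · show ((Pi.mulSingle r (g r u) : CharGrp p Q (fun _ => n + 1)) ^ hh) r' = 1
    rw [Pi.pow_apply, Pi.mulSingle_eq_of_ne h, one_pow]
  · obtain ⟨v, hv⟩ := hgs r (y⁻¹ * y⁻¹)
    refine ⟨v, ?_⟩
    show ((Pi.mulSingle r (g r v) : CharGrp p Q (fun _ => n + 1)) ^ hh) r = y
    rw [Pi.pow_apply, Pi.mulSingle_eq_same, hv]
    let π : Δ →* Multiplicative (ZMod (p ^ (fun _ => n + 1 : ℕ → ℕ) r)) :=
      (Pi.evalMonoidHom
        (fun l : Q => Multiplicative (ZMod (p ^ (fun _ => n + 1 : ℕ → ℕ) l))) r).comp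
        (MonoidHom.snd _ _)
    have h1 := congrArg π (pow_half_surjective hodd ((1, Pi.mulSingle r y) : Δ))
    have h2 : π ((1, Pi.mulSingle r y) : Δ) = y := by
      show (Pi.mulSingle r y : CharGrp p Q (fun _ => n + 1)) r = y
      simp
    rw [map_pow, map_mul, map_inv, h2] at h1
    exact h1
  · have hr := hQp r r.2
    have hrS := hQS r r.2
    have h1 := hact r A hr ((hQM r r.2).2.1) (fun h => hrS (h ▸ hL.p_mem)) (hQ r r.2).2.2.1 hA
      (fun τ hτ => H.unramified r hr (fun h => hrS (h ▸ hL.p_mem)) (hQN r r.2) A hA τ hτ) σ hσ 1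
      (Pi.mulSingle r (g r (cycM (r : ℕ) σ)))
      (Prod.ext (char_cycM_of_notMem (c := (MonoidHom.fst _ _).comp c) hsigM hf hr hA hσ
          (Finset.disjoint_right.mp hdisj r.2))
        (char_cycM_of_mem (c := (MonoidHom.snd _ _).comp c) hQM hg hr hA hσ r.2))
    rw [one_pow, map_one, inv_one, Units.val_one, one_smul, one_smul] at h1
    exact h1
  · show χ _ ^ p = 1
    rw [← map_pow, hCp, map_one]
  · obtain ⟨v, hv⟩ := hfs l (Multiplicative.ofAdd 1)
    have h1 : xi l v = 1 := by rw [h]; rfl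
    change χ ((Pi.mulSingle l (f l v) : CharGrp p sig (fun _ => 1)) ^ hh) = 1 at h1
    rw [hv, ← Pi.mulSingle_pow, hχ, prodChar_mulSingle, ← map_one z] at h1
    have h2 := Multiplicative.ofAdd.injective (hzinj h1)
    have h3 : (Multiplicative.ofAdd (1 : ZMod (p ^ 1))) ^ hh = 1 := by
      have hbij : Function.Injective (ZMod.castHom (dvd_of_eq (pow_one p).symm) (ZMod p)) :=
        (injective_iff_map_eq_zero _).mpr fun w hw => by
          haveI : NeZero (p ^ 1) := ⟨pow_ne_zero 1 (Fact.out : p.Prime).ne_zero⟩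
          rw [← ZMod.natCast_zmod_val w, map_natCast, ZMod.natCast_eq_zero_iff] at hw
          rw [← ZMod.natCast_zmod_val w, ZMod.natCast_eq_zero_iff]
          exact (dvd_of_eq (pow_one p)).trans hw
      exact Multiplicative.toAdd.injective (hbij (h2.trans (map_zero _).symm))
    have h4 : ((Pi.mulSingle l (Multiplicative.ofAdd (1 : ZMod (p ^ 1))), 1) : Δ) = 1 :=
      pow_half_eq_one hodd (by rw [Prod.pow_mk, one_pow, ← Pi.mulSingle_pow, h3]; simp)
    have h5 := congrArg (fun w : Δ => Multiplicative.toAdd (w.1 l)) h4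
    simp at h5
    haveI : Fact (1 < p ^ 1) := ⟨by rw [pow_one]; exact (Fact.out : p.Prime).one_lt⟩
    exact one_ne_zero h5
  · have hl := hsigp l l.2
    obtain ⟨-, -, hlp, hl1, hlI⟩ := H.sig_spec l l.2
    have h1 := hact l A hl ((hsigM l l.2).2.1) hlp hl1 hA (hlI A hA) σ hσ
      (Pi.mulSingle l (f l (cycM (l : ℕ) σ))) 1
      (Prod.ext (char_cycM_of_mem (c := (MonoidHom.fst _ _).comp c) hsigM hf hl hA hσ l.2)
        (char_cycM_of_notMem (c := (MonoidHom.snd _ _).comp c) hQM hg hl hA hσ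
          (Finset.disjoint_left.mp hdisj l.2)))
    rw [one_pow, inv_one, map_one (chiDia hc χ), ← add_smul] at h1
    rw [h1, Algebra.algebraMap_eq_smul_one]
    rfl
  · obtain ⟨hqpr, hqN, hqp, hq1, -⟩ := H.sig_spec q H.q_mem
    haveI : NeZero (M / q) := ⟨(Nat.div_pos (Nat.le_of_dvd (NeZero.pos M)
      (hqN.trans (dvd_mul_right N _))) hqpr.pos).ne'⟩
    refine chi_qnew (p := p) hc χ Φ hdiaΦ (fun u => ?_) hb hbasis q σ (HR.ρ.trace σ) (fun x => ?_)
      (fun x hx => ?_) v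
    · rw [← map_inv]
      exact prodChar_sub_one_mem sig z hz1 _
    · have h := hquad σ x
      rwa [cycO_frobenius (p := p) (O := O) hqpr hqp hA hσ] at h
    · have h := qnew_norm (c := c) hp2 hneat hp hΔ hc (MonoidHom.snd (CharGrp p sig (fun _ => 1))
        (CharGrp p Q (fun _ => n + 1))) Prod.snd_surjective (D := ∏ v ∈ Q, v) (dvd_mul_left _ N)
        (squarefree_prod_primes Q hQp) hcQ hpS' hMS hne ρbar hL.absIrr hfrob' hqpr hqp
        (hqN.trans (dvd_mul_right N _))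
        (hr2 q hqpr) (fun h => hQN q (hQD q hqpr h) hqN)
        hq1 (lower_eq_bot H hQ) A hA σ hσ hx
      refine Eq.trans ?_ h
      congr 1
      rw [cNorm, LinearMap.sum_apply]
      refine Finset.sum_nbij' (fun x => (x, 1)) (fun u => u.1) ?_ ?_ ?_ ?_ fun x _ => rfl
      · exact fun x _ => Finset.mem_filter.mpr ⟨Finset.mem_univ _, rfl⟩
      · exact fun u _ => Finset.mem_univ _
      · exact fun x _ => rfl
      · exact fun u hu => Prod.ext rfl (Finset.mem_filter.mp hu).2.symm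

/-- The rank is bounded in terms of the number of Taylor-Wiles primes only. -/
theorem exists_out {ρbar : ResidualGaloisRep (ResidueField O)} {N : ℕ} [NeZero N]
    {S sig aux : Finset ℕ} {q : ℕ} {a : ℕ → O} (H : Setting p O ρbar N S sig aux q a) (r : ℕ) :
    ∃ B : ℕ, ∀ (n : ℕ) (Q : Finset ℕ), Q.card = r →
      (∀ v ∈ Q, v.Prime ∧ v ∉ S ∧ v ≡ 1 [MOD p ^ (n + 1)] ∧ residue O (a v) ^ 2 ≠ 4) →
        ∃ X : Out p O ρbar N S sig Q q n, X.rank ≤ B :=
  ⟨2 ^ r * Module.finrank O (latLoc N (1 : (ZMod N)ˣ →* Unit) O (Levels.levelPrimes p N) a),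
    fun _ _ hcard hQ => hcard ▸ exists_out_at H hQ⟩

end Fermat.Agent.R59.Scalar
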