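/-
S59, unit F2: the setting at the last level is contradictory.
-/
import Fermat.Agent.R59.Scalar.Output
import Fermat.Agent.R59.Scalar.Gen
import Fermat.Agent.LL.Patched

set_option autoImplicit false
set_option linter.unusedSectionVars false

noncomputable section

open IsLocalRing MvPowerSeries
open Fermat.Agent.Galois (GQ)
open Fermat.Agent.GalRep.Level (cycM)

namespace Fermat.Agent.R59.Scalar

variable {p : ℕ} [Fact p.Prime] {O : Type} [CommRing O] [IsDomain O] [IsDiscreteValuationRing O]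
  [IsAdicComplete (maximalIdeal O) O] [Finite (ResidueField O)]
  [Algebra ℤ_[p] O] [Module.Finite ℤ_[p] O] [CharZero O]

/-- **The last level is contradictory.** -/
theorem false_of_setting {ρbar : ResidualGaloisRep (ResidueField O)} {N : ℕ} [NeZero N]
    {S sig aux : Finset ℕ} {q : ℕ} {a : ℕ → O} (H : Setting p O ρbar N S sig aux q a) : False := by
  classical
  obtain ⟨ζ, hζ⟩ := H.exists_zeta
  obtain ⟨i₀, hi₀⟩ := H.sqrt_neg_one
  obtain ⟨hpm, hζm⟩ := LL.natCast_mem_maximalIdeal (O := O) hζ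
  have hp : p.Prime := Fact.out
  haveI : CharP (ResidueField O) p := by
    refine (CharP.charP_iff_prime_eq_zero hp).mpr ?_
    rw [← map_natCast (residue O), residue_eq_zero_iff]
    exact hpm
  have hp2 := H.levels.ne_two
  have h3 : 2 < p := lt_of_le_of_ne hp.two_le (Ne.symm hp2)
  have h2u : IsUnit (2 : O) := by
    by_contra h
    have h2 : residue O 2 = 0 := (residue_eq_zero_iff _).mpr h
    rw [map_ofNat, show (2 : ResidueField O) = ((2 : ℕ) : ResidueField O) by simp,
      CharP.cast_eq_zero_iff (ResidueField O) p] at h2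
    have := Nat.le_of_dvd two_pos h2
    omega
  obtain ⟨half, hhalf⟩ := h2u.exists_right_inv
  have hζu : IsUnit ζ := (hζ.isUnit hp.ne_zero)
  obtain ⟨ζi, hζi⟩ := hζu.exists_right_inv
  set δ : O := half * (ζ - ζi) with hδdef
  have hδeq : 2 * δ * ζ = ζ * ζ - 1 := by
    rw [hδdef]; linear_combination (ζ * ζ - ζ * ζi) * hhalf - hζi
  have hδ : δ ≠ 0 := by
    intro h0
    rw [h0, mul_zero, zero_mul] at hδeq
    have h2 : ζ ^ 2 = 1 := by rw [pow_two]; exact (sub_eq_zero.mp hδeq.symm)
    have := Nat.le_of_dvd two_pos ((hζ.pow_eq_one_iff_dvd 2).mp h2)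
    omega
  have hδm : δ ∈ maximalIdeal O := by
    have : (2 * δ * ζ : O) ∈ maximalIdeal O := by
      rw [hδeq, show ζ * ζ - 1 = (ζ - 1) * (ζ + 1) by ring]
      exact Ideal.mul_mem_right _ _ hζm
    rwa [Ideal.mul_unit_mem_iff_mem _ hζu, Ideal.unit_mul_mem_iff_mem _ h2u] at this
  obtain ⟨ϖ, hϖ⟩ := IsDiscreteValuationRing.exists_irreducible O
  let b₀ := Module.finBasisOfFinrankEq (ResidueField O) ρbar.V ρbar.finrank_eq
  have hUS : ramPrimes p N sig aux ⊆ S := fun l hl => by
    obtain ⟨hlp', -, hlN, -, -⟩ := mem_ramPrimes.mp hl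
    exact H.levels.level_mem l hlp' hlN
  have hsigS : sig ⊆ S := fun l hl =>
    H.levels.level_mem l (H.sig_spec l hl).1 (H.sig_spec l hl).2.1
  obtain ⟨r, g₀, hr, hsel⟩ := exists_tw_sel hp2 (H.twHyp b₀) S (ramPrimes p N sig aux) sig H.prime_S
    H.levels.p_mem hUS hsigS (fun h => (H.sig_spec p h).2.2.1 rfl)
    (fun l hl A hA σ hσ => by
      obtain ⟨c, hc⟩ := H.scalar l hl A hA σ hσ
      exact ⟨c, by rw [LL.resMat_apply, hc, map_smul, map_one]⟩)
    (fun l hl hlp hlU A hA σ hσ => by
      rw [LL.resMat_apply, unramified_residual H hl hlp hlU A hA σ hσ, map_one])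
    (fun l hl _ _ A hA => by
      obtain ⟨hl', hlp, hlN, hls, hla⟩ := mem_ramPrimes.mp hl
      obtain ⟨hram, hu⟩ := H.ramified l hl' hlp hlN hls hla
      refine ⟨fun σ hσ => ?_, ?_⟩
      · have h2 := LinearMap.aeval_self_charpoly (ρbar.ρ σ)
        rw [show LinearMap.charpoly (ρbar.ρ σ) = (Polynomial.X - 1) ^ 2 from hu A hA σ hσ, map_pow,
          map_sub, Polynomial.aeval_X, map_one, sq] at h2
        rw [LL.resMat_apply, ← map_one (LinearMap.toMatrixAlgEquiv b₀), ← map_sub, ← map_mul, h2,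
          map_zero]
      · by_contra hcon
        push Not at hcon
        refine hram fun B hB σ hσ => ?_
        obtain ⟨g, rfl⟩ := Galois.exists_smul_eq_of_liesOverPrime hl' hA hB
        refine (LinearMap.toMatrixAlgEquiv b₀).injective ?_
        rw [← LL.resMat_apply, map_one, show σ = g * (g⁻¹ * σ * g) * g⁻¹ by group, map_mul, map_mul,
          hcon _ (GD.mem_inertia_conj hσ), mul_one, ← map_mul, mul_inv_cancel, map_one])
  obtain ⟨B, hB⟩ := exists_out H r
  choose Q hQcard hQ hQsel using hsel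
  have htr : ∀ n, ∀ v ∈ Q n, residue O (a v) ^ 2 ≠ 4 := fun n v hv => by
    obtain ⟨hv1, hv2, -, hv4⟩ := hQ n v hv
    obtain ⟨A, hA⟩ := Galois.exists_liesOverPrime hv1
    obtain ⟨φ, hφ⟩ := Galois.exists_isFrobeniusAt hv1 hA
    have hc := H.levels.charpoly_frob v hv1 (fun e => hv2 (e ▸ H.levels.p_mem))
      (fun hd => hv2 (H.levels.level_mem v hv1 hd)) A hA φ hφ
    have h := hv4 A hA φ hφ
    have htr : LinearMap.trace _ _ (ρbar.ρ φ) = residue O (a v) := by
      rw [LinearMap.trace_eq_matrix_trace _ b₀, Matrix.trace_eq_neg_charpoly_coeff,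
        LinearMap.charpoly_toMatrix (ρbar.ρ φ) b₀, hc]
      simp [Polynomial.coeff_X]
    rw [LL.resMat_apply, show (LinearMap.toMatrixAlgEquiv b₀ (ρbar.ρ φ)).trace = residue O (a v) by
      rw [← htr, LinearMap.trace_eq_matrix_trace _ b₀]; rfl] at h
    exact h
  obtain ⟨s, hs⟩ := LL.exists_frequent
    (α := fun n => Out p O ρbar N S sig (Q n) q n) (fun _ X => X.rank) B
    fun n => hB n (Q n) (hQcard n) fun v hv => ⟨(hQ n v hv).1, (hQ n v hv).2.1, (hQ n v hv).2.2.1,
      htr n v hv⟩
  have hs0 : 0 < s := by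
    obtain ⟨m, -, X, hX⟩ := hs 0
    exact hX ▸ X.rank_pos
  refine LL.false_of_levels (r := r) (ι := sig) (g₀ := g₀) (s := s) hϖ hδ hδm hi₀ two_ne_zero
    (by rw [Fintype.card_coe]; exact hr) ⟨q, H.q_mem⟩ hs0 (s + 2) fun n => ?_
  obtain ⟨m, hm, X, rfl⟩ := hs n
  let bT := Module.finBasisOfFinrankEq X.T X.ρ.V X.ρ.finrank_eq
  let e : Fin r ≃ Q m := ((Q m).equivFinOfCardEq (hQcard m)).symm
  obtain ⟨R, _, φR, hsurj, hker, _, bR, hC, hX, hlin⟩ := LL.exists_level_ring hpm e X.dia X.basis
  haveI : ∀ l : sig, NeZero (l : ℕ) := fun l => ⟨(H.sig_spec l l.2).1.ne_zero⟩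
  choose A hA using fun l : sig => Galois.exists_liesOverPrime (H.sig_spec l l.2).1
  choose τ hτ hτζ using fun l : sig => LL.exists_inertia_char (H.sig_spec l l.2).1 (hA l)
    (X.xi l) (X.xi_pow l) (X.xi_ne l) hζ
  choose φ hφ using fun l : sig => Galois.exists_isFrobeniusAt (H.sig_spec l l.2).1 (hA l)
  let U : sig → Matrix (Fin 2) (Fin 2) X.T := fun l => LinearMap.toMatrixAlgEquiv bT (X.ρ.ρ (τ l))
  let F : sig → Matrix (Fin 2) (Fin 2) X.T := fun l => LinearMap.toMatrixAlgEquiv bT (X.ρ.ρ (φ l))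
  obtain ⟨x, hxm, hgen⟩ := exists_generators H X
    b₀ (hQsel m) bT hζ hhalf hϖ A hA τ φ hτ (fun l _ => hτζ l) hφ
  have hloc : ∀ l : sig, LocalFacts X δ half (l : ℕ) (U l) (F l) := fun l =>
    localFacts H X bT hζ hhalf hδeq l (hA l) (hτ l) (hτζ l) (hφ l)
  let lift : X.T → Module.End R X.V := fun t =>
    { toFun := fun v => X.act t v
      map_add' := fun v w => map_add _ v w
      map_smul' := fun c v => hlin (X.act t) (fun d => X.dia_commute d t) c v }
  let zT : LL.Var sig g₀ → X.T := fun v => match v with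
    | .inl (l, k) => ![LL.coord half (U l) 0, LL.coord half (U l) 1, LL.coord half (U l) 2,
        LL.coord half (F l) 0, LL.coord half (F l) 1, LL.coord half (F l) 2] k
    | .inr j => x j
  have hzm : ∀ v, zT v ∈ maximalIdeal X.T := by
    rintro (⟨l, k⟩ | j)
    · fin_cases k <;> simp [zT, ((hloc l).coord_mem _).1, ((hloc l).coord_mem _).2]
    · exact hxm j
  refine ⟨R, inferInstance, φR, hsurj, hker.trans (Ideal.pow_le_pow_right hm), X.V, inferInstance,
    inferInstance, bR, fun v => lift (zT v), ?_, ?_, ?_, ?_, ?_⟩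
  · intro v w
    refine LinearMap.ext fun y => ?_
    change X.act (zT v) (X.act (zT w) y) = X.act (zT w) (X.act (zT v) y)
    rw [← Module.End.mul_apply, ← map_mul, mul_comm, map_mul, Module.End.mul_apply]
  · intro v
    haveI : Nontrivial R := by
      refine ⟨⟨0, 1, fun h01 => ?_⟩⟩
      have : ∀ w : X.V, w = 0 := fun w => by
        rw [← one_smul R w, ← h01, zero_smul]
      obtain ⟨b, hb⟩ := X.basis
      obtain ⟨f, -, hu⟩ := hb 0
      have h0 := hu (fun _ _ => 0) (this _).symm
      have h1 := hu (fun _ _ => 1) (this _).symm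
      have := congrFun (congrFun (h1.trans h0.symm) ⟨0, X.rank_pos⟩) 1
      exact one_ne_zero this
    haveI : IsLocalRing R := IsLocalRing.of_surjective' φR hsurj
    haveI : IsLocalHom φR := .of_surjective φR hsurj
    have hmax : maximalIdeal R = (maximalIdeal (MvPowerSeries (Fin r) O)).map φR :=
      (IsLocalRing.map_maximalIdeal_of_surjective φR hsurj).symm
    have hϖR : φR (C ϖ) ∈ maximalIdeal R := by
      rw [mem_maximalIdeal, mem_nonunits_iff]
      intro hu
      have := isUnit_of_map_unit φR _ hu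
      rw [isUnit_iff_constantCoeff, constantCoeff_C] at this
      exact hϖ.not_isUnit this
    set J := (maximalIdeal O).map (algebraMap O X.T) with hJ
    haveI : Finite (O ⧸ maximalIdeal O) := ‹Finite (ResidueField O)›
    haveI : Finite (X.T ⧸ J) := Module.finite_of_finite (O ⧸ maximalIdeal O)
    obtain ⟨k, hk⟩ := exists_maximalIdeal_pow_le_of_isArtinianRing_quotient J
    have hkv : zT v ^ k ∈ J := hk (Ideal.pow_mem_pow (hzm v) k)
    rw [hJ, hϖ.maximalIdeal_eq, Ideal.map_span, Set.image_singleton,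
      Ideal.mem_span_singleton] at hkv
    obtain ⟨u, hu⟩ := hkv
    have hliftpow : ∀ (t : X.T) (i : ℕ) (w : X.V), (lift t ^ i) w = X.act (t ^ i) w := by
      intro t i
      induction i with
      | zero => intro w; rw [pow_zero, pow_zero, map_one]; rfl
      | succ i ih =>
        intro w
        rw [pow_succ, pow_succ, map_mul, Module.End.mul_apply, Module.End.mul_apply, ih]
        rfl
    rw [← hmax]
    have hNs : LinearMap.range (lift (zT v) ^ X.rank) ≤ maximalIdeal R • ⊤ :=
      LL.range_pow_le_smul bR _ (N := k) (by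
        rintro _ ⟨w, rfl⟩
        rw [hliftpow, hu, map_mul, AlgHom.commutes, Module.End.mul_apply,
          Module.algebraMap_end_apply, ← hC]
        exact Submodule.smul_mem_smul hϖR Submodule.mem_top)
    rintro _ ⟨w, rfl⟩
    rw [pow_add, Module.End.mul_apply]
    exact hNs (LinearMap.mem_range_self _ _)
  · rintro ⟨l, k⟩
    have hδR : ∀ w : X.V, (algebraMap R (Module.End R X.V) (φR (C δ))) w = δ • w := fun w => by
      rw [Module.algebraMap_end_apply, hC]
    have h0 : LL.rel (algebraMap R (Module.End R X.V) (φR (C δ))) (fun v => lift (zT v)) (l, k) = 0 := by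
      fin_cases k <;> refine LinearMap.ext fun w => ?_ <;> rw [LinearMap.zero_apply] <;>
        change (_ - _ : Module.End R X.V) w = 0 <;> rw [LinearMap.sub_apply, sub_eq_zero]
      · change X.act (LL.coord half (U l) 0) (X.act (LL.coord half (U l) 0) w) +
          X.act (LL.coord half (U l) 1) (X.act (LL.coord half (U l) 2) w) = _
        rw [Module.End.mul_apply, hδR, hδR]
        have := LinearMap.congr_fun (hloc l).quadric w
        simpa only [LinearMap.add_apply, Module.End.mul_apply, Module.algebraMap_end_apply] using this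
      · exact LinearMap.congr_fun (hloc l).minor₁ w
      · exact LinearMap.congr_fun (hloc l).minor₂ w
      · exact LinearMap.congr_fun (hloc l).minor₃ w
    rw [h0, zero_pow (by omega)]
  · intro j
    obtain ⟨t, htm, htj⟩ := exists_param H X (fun v hv => ⟨(hQ m v hv).1, (hQ m v hv).2.1⟩) (e j)
    rintro _ ⟨w, rfl⟩
    rw [show X.rank + 2 = 2 + X.rank by omega, pow_add, Module.End.mul_apply]
    generalize ((algebraMap R (Module.End R X.V)) (φR (MvPowerSeries.X j)) ^ X.rank) w = w'
    rw [pow_two, Module.End.mul_apply, Module.algebraMap_end_apply, Module.algebraMap_end_apply]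
    have hX' : ∀ u : X.V, φR (MvPowerSeries.X j) • u =
        (X.dia (Pi.mulSingle (e j) (Multiplicative.ofAdd 1)) - 1) u := fun u => by
      rw [hX, LinearMap.sub_apply, Module.End.one_apply]
    rw [hX' w', hX', htj w']
    have hmem : ∀ t' ∈ Ideal.span ({algebraMap O X.T ϖ} ∪ Set.range zT), ∀ u : X.V,
        X.act t' u ∈ (⨆ v, LinearMap.range (lift (zT v))) ⊔
          LinearMap.range (algebraMap R (Module.End R X.V) (φR (C ϖ))) := by
      intro t' ht'
      induction ht' using Submodule.span_induction with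
      | mem y hy =>
        intro u
        rcases hy with hy | ⟨v, rfl⟩
        · rw [Set.mem_singleton_iff] at hy
          subst hy
          rw [AlgHom.commutes, Module.algebraMap_end_apply, ← hC]
          exact Submodule.mem_sup_right ⟨u, by rw [Module.algebraMap_end_apply]⟩
        · exact Submodule.mem_sup_left (Submodule.mem_iSup_of_mem v ⟨u, rfl⟩)
      | zero => intro u; rw [map_zero, LinearMap.zero_apply]; exact zero_mem _
      | add y y' _ _ hy hy' => intro u; rw [map_add, LinearMap.add_apply]; exact add_mem (hy u) (hy' u)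
      | smul c y _ hy =>
        intro u
        rw [smul_eq_mul, mul_comm, map_mul, Module.End.mul_apply]
        exact hy _
    refine hmem t (Ideal.span_le.mpr ?_ (hgen htm)) _
    rintro y (((hy | ⟨⟨l, k⟩, rfl⟩) | ⟨⟨l, k⟩, rfl⟩) | ⟨i, rfl⟩)
    · exact Ideal.subset_span (Or.inl hy)
    · fin_cases k
      exacts [Ideal.subset_span (Or.inr ⟨.inl (l, 0), rfl⟩),
        Ideal.subset_span (Or.inr ⟨.inl (l, 1), rfl⟩), Ideal.subset_span (Or.inr ⟨.inl (l, 2), rfl⟩)]
    · fin_cases k
      exacts [Ideal.subset_span (Or.inr ⟨.inl (l, 3), rfl⟩),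
        Ideal.subset_span (Or.inr ⟨.inl (l, 4), rfl⟩), Ideal.subset_span (Or.inr ⟨.inl (l, 5), rfl⟩)]
    · exact Ideal.subset_span (Or.inr ⟨.inr i, rfl⟩)
  · rintro _ ⟨w, rfl⟩
    rw [show X.rank + 2 = 1 + (X.rank + 1) by omega, pow_add, Module.End.mul_apply, pow_one]
    generalize (LL.quad (fun v => lift (zT v)) ⟨q, H.q_mem⟩ ^ (X.rank + 1)) w = w'
    have h := (hloc ⟨q, H.q_mem⟩).quad rfl w'
    rw [hϖ.maximalIdeal_eq, Submodule.ideal_span_singleton_smul] at h
    obtain ⟨u, -, hu⟩ := h
    refine ⟨u, ?_⟩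
    rw [Module.algebraMap_end_apply, hC]
    exact hu

end Fermat.Agent.R59.Scalar
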